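import Mathlib

/-!
# Kummer project: shared definitions

`KummerLemma p K`: every unit of `𝓞 K` congruent to a rational integer modulo `p` is a
`p`-th power of a unit.
-/

set_option autoImplicit false

namespace Fermat.Agent.KummerLib

open NumberField

/-- Kummer's lemma for the number field `K` and the exponent `p`: a unit of `𝓞 K` that is
congruent to a rational integer modulo `p` is a `p`-th power. -/
def KummerLemma (p : ℕ) (K : Type) [Field K] [NumberField K] : Prop :=
  ∀ u : (𝓞 K)ˣ, (∃ n : ℤ, (p : 𝓞 K) ∣ (u : 𝓞 K) - (n : 𝓞 K)) → ∃ v : (𝓞 K)ˣ, u = v ^ p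

end Fermat.Agent.KummerLib
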