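import Mathlib
import Fermat.Agent.KummerLib.Defs

/-!
# Kummer project: the second case (descent)

Abstract descent in a principal ideal domain `R` containing a primitive `p`-th root of unity `ζ`
such that `π = ζ - 1` is prime, `p ∣ π ^ (p - 1)`, `R ⧸ π` has `p` elements and the Kummer lemma
holds; then the instantiation to `𝓞 K`, `K` the `p`-th cyclotomic field.
-/

set_option autoImplicit false
set_option linter.unusedSectionVars false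

namespace Fermat.Agent.KummerLib.CaseII

open Polynomial Finset

section Abstract

variable {R : Type*} [CommRing R] [IsDomain R] {p : ℕ} {ζ : R}

/-- distinct `p`-th roots of unity differ by a unit times `ζ - 1`. -/
theorem exists_unit_root_sub (hp : p.Prime) (hζ : IsPrimitiveRoot ζ p) {μ ν : R}
    (hμ : μ ∈ nthRootsFinset p (1 : R)) (hν : ν ∈ nthRootsFinset p (1 : R)) (hne : μ ≠ ν) :
    ∃ w : Rˣ, μ - ν = (ζ - 1) * w := by
  obtain ⟨w, hw⟩ := hζ.nthRootsFinset_pairwise_associated_sub_one_sub_of_prime hp hμ hν hne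
  exact ⟨w, hw.symm⟩

theorem pi_dvd_p (hp : p.Prime) (hζ : IsPrimitiveRoot ζ p) : ζ - 1 ∣ (p : R) :=
  hζ.sub_one_dvd_natCast hp.one_lt

theorem pi_dvd_of_p_dvd (hp : p.Prime) (hζ : IsPrimitiveRoot ζ p) {a : R} (h : (p : R) ∣ a) :
    ζ - 1 ∣ a :=
  (pi_dvd_p hp hζ).trans h

theorem p_dvd_pi_pow (hp : p.Prime) (hpπ : (p : R) ∣ (ζ - 1) ^ (p - 1)) :
    (p : R) ∣ (ζ - 1) ^ p := by
  have : (ζ - 1) ^ p = (ζ - 1) ^ (p - 1) * (ζ - 1) := by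
    rw [← pow_succ, Nat.sub_add_cancel hp.one_le]
  rw [this]
  exact hpπ.mul_right _

/-- `π ∣ n` for an integer `n` iff `p ∣ n`. -/
theorem pi_dvd_intCast_iff (hp : p.Prime) (hζ : IsPrimitiveRoot ζ p) (hπ : Prime (ζ - 1))
    {n : ℤ} : ζ - 1 ∣ (n : R) ↔ (p : ℤ) ∣ n := by
  constructor
  · intro h
    by_contra hn
    have hcop : IsCoprime (p : ℤ) n :=
      (Nat.prime_iff_prime_int.mp hp).coprime_iff_not_dvd.mpr hn
    have hcop' : IsCoprime ((p : ℤ) : R) (n : R) := hcop.intCast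
    have := hcop'.isUnit_of_dvd' (by simpa using pi_dvd_p hp hζ) h
    exact hπ.not_isUnit this
  · rintro ⟨k, rfl⟩
    have := pi_dvd_p hp hζ
    push_cast
    exact this.mul_right _

/-- Frobenius: every `p`-th power is congruent to an integer modulo `p`. -/
theorem exists_int_pow_sub (hp : p.Prime) (hpπ : (p : R) ∣ (ζ - 1) ^ (p - 1))
    (hres : ∀ w : R, ∃ n : ℤ, ζ - 1 ∣ w - n) (w : R) :
    ∃ n : ℤ, (p : R) ∣ w ^ p - n := by
  obtain ⟨n, t, ht⟩ := hres w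
  obtain ⟨r, hr⟩ := exists_add_pow_prime_eq hp (n : R) ((ζ - 1) * t)
  obtain ⟨s, hs⟩ := p_dvd_pi_pow hp hpπ
  refine ⟨n ^ p, ?_⟩
  have hw : w = n + (ζ - 1) * t := by linear_combination ht
  refine ⟨s * t ^ p + n * ((ζ - 1) * t) * r, ?_⟩
  rw [hw, hr, mul_pow, hs]
  push_cast
  ring

/-- if `n₁ + η n₂ ≡ 0` modulo `p` and `p ∤ n₂` then `η` is congruent to an integer. -/
theorem exists_int_sub_of_add_mul (hp : p.Prime) {η : R} {n₁ n₂ : ℤ}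
    (h : (p : R) ∣ n₁ + η * n₂) (hn₂ : ¬ (p : ℤ) ∣ n₂) : ∃ n : ℤ, (p : R) ∣ η - n := by
  have hcop : IsCoprime (p : ℤ) n₂ :=
    (Nat.prime_iff_prime_int.mp hp).coprime_iff_not_dvd.mpr hn₂
  obtain ⟨a, b, hab⟩ := hcop
  obtain ⟨k, hk⟩ := h
  refine ⟨-(b * n₁), a * η + b * k, ?_⟩
  have hab' : (a : R) * p + b * n₂ = 1 := by exact_mod_cast congrArg (Int.cast : ℤ → R) hab
  push_cast
  linear_combination (-η) * hab' + (b : R) * hk

end Abstract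

section Descent

variable {R : Type*} [CommRing R] [IsDomain R] {p : ℕ} {ζ : R}

theorem not_pi_dvd_right (hp : p.Prime) (hπ : Prime (ζ - 1)) {x y z : R} {ε : Rˣ}
    (hxy : IsCoprime x y) (hz : ζ - 1 ∣ z) (h : x ^ p + y ^ p = ε * z ^ p) : ¬ ζ - 1 ∣ y := by
  intro hy
  have hx : ζ - 1 ∣ x ^ p := by
    have : x ^ p = ε * z ^ p - y ^ p := by linear_combination h
    rw [this]
    exact dvd_sub ((dvd_pow hz hp.ne_zero).mul_left _) (dvd_pow hy hp.ne_zero)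
  exact hπ.not_isUnit (hxy.isUnit_of_dvd' (hπ.dvd_of_dvd_pow hx) hy)

theorem pi_dvd_all (hp : p.Prime) (hp2 : p ≠ 2) (hζ : IsPrimitiveRoot ζ p) (hπ : Prime (ζ - 1))
    {x y z : R} {ε : Rˣ} (hz : ζ - 1 ∣ z) (h : x ^ p + y ^ p = ε * z ^ p) :
    ∀ μ ∈ nthRootsFinset p (1 : R), ζ - 1 ∣ x + μ * y := by
  have hprod : ζ - 1 ∣ ∏ μ ∈ nthRootsFinset p (1 : R), (x + μ * y) := by
    rw [← hζ.pow_add_pow_eq_prod_add_mul x y (hp.odd_of_ne_two hp2), h]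
    exact (dvd_pow hz hp.ne_zero).mul_left _
  obtain ⟨μ₁, hμ₁, hd⟩ := (hπ.dvd_finsetProd_iff _).1 hprod
  intro μ hμ
  have : x + μ * y = (x + μ₁ * y) + (μ - μ₁) * y := by ring
  rw [this]
  exact dvd_add hd ((hζ.sub_one_dvd_sub hp hμ hμ₁).mul_right _)

/-- pigeonhole: one of the factors is divisible by `π ^ 2`. -/
theorem exists_sq_dvd (hp : p.Prime) (hζ : IsPrimitiveRoot ζ p)
    (hcard : Nat.card (R ⧸ Ideal.span {ζ - 1}) = p) {x y : R} (hy : ¬ ζ - 1 ∣ y)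
    (hall : ∀ μ ∈ nthRootsFinset p (1 : R), ζ - 1 ∣ x + μ * y) :
    ∃ μ₀ ∈ nthRootsFinset p (1 : R), (ζ - 1) ^ 2 ∣ x + μ₀ * y := by
  classical
  have hπ0 : ζ - 1 ≠ 0 := sub_ne_zero.2 (hζ.ne_one hp.one_lt)
  have hex : ∀ μ : R, ∃ a : R, μ ∈ nthRootsFinset p (1 : R) → x + μ * y = (ζ - 1) * a := by
    intro μ
    by_cases hμ : μ ∈ nthRootsFinset p (1 : R)
    · obtain ⟨a, ha⟩ := hall μ hμ
      exact ⟨a, fun _ => ha⟩
    · exact ⟨0, fun h => absurd h hμ⟩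
  choose A hA using hex
  have hfin : Finite (R ⧸ Ideal.span {ζ - 1}) :=
    Nat.finite_of_card_ne_zero (by rw [hcard]; exact hp.ne_zero)
  let _ : Fintype (R ⧸ Ideal.span {ζ - 1}) := Fintype.ofFinite _
  let f : R → R ⧸ Ideal.span {ζ - 1} := fun μ => Ideal.Quotient.mk _ (A μ)
  have hinj : Set.InjOn f (nthRootsFinset p (1 : R) : Set R) := by
    intro μ hμ ν hν hfe
    by_contra hne
    obtain ⟨w, hw⟩ := exists_unit_root_sub hp hζ hμ hν hne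
    have hd : ζ - 1 ∣ A μ - A ν := by
      rw [← Ideal.mem_span_singleton, ← Ideal.Quotient.eq]
      exact hfe
    have hAA : A μ - A ν = w * y := by
      apply mul_left_cancel₀ hπ0
      linear_combination (-1 : R) * hA μ hμ + hA ν hν + y * hw
    rw [hAA] at hd
    exact hy ((IsUnit.dvd_mul_left w.isUnit).1 hd)
  have himg : (nthRootsFinset p (1 : R)).image f = Finset.univ := by
    apply Finset.eq_univ_of_card
    rw [Finset.card_image_of_injOn hinj, hζ.card_nthRootsFinset, ← Nat.card_eq_fintype_card, hcard]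
  have h0 : (0 : R ⧸ Ideal.span {ζ - 1}) ∈ (nthRootsFinset p (1 : R)).image f := by
    rw [himg]; exact Finset.mem_univ _
  obtain ⟨μ₀, hμ₀, hf0⟩ := Finset.mem_image.1 h0
  refine ⟨μ₀, hμ₀, ?_⟩
  have hd : ζ - 1 ∣ A μ₀ := by
    rw [← Ideal.mem_span_singleton, ← Ideal.Quotient.eq_zero_iff_mem]
    exact hf0
  rw [hA μ₀ hμ₀, pow_two]
  exact mul_dvd_mul_left _ hd

theorem isCoprime_quot (hp : p.Prime) (hζ : IsPrimitiveRoot ζ p) {x y a b μ ν : R}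
    (hxy : IsCoprime x y) (hμ : μ ∈ nthRootsFinset p (1 : R)) (hν : ν ∈ nthRootsFinset p (1 : R))
    (hne : μ ≠ ν) (ha : x + μ * y = (ζ - 1) * a) (hb : x + ν * y = (ζ - 1) * b) :
    IsCoprime a b := by
  have hπ0 : ζ - 1 ≠ 0 := sub_ne_zero.2 (hζ.ne_one hp.one_lt)
  obtain ⟨w, hw⟩ := exists_unit_root_sub hp hζ hμ hν hne
  obtain ⟨u, v, huv⟩ := hxy
  have h1 : a - b = w * y := by
    apply mul_left_cancel₀ hπ0
    linear_combination (-1 : R) * ha + hb + y * hw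
  have h2 : ν * a - μ * b = -(w * x) := by
    apply mul_left_cancel₀ hπ0
    linear_combination (-ν) * ha + μ * hb - x * hw
  refine ⟨(↑w⁻¹ : R) * (v - u * ν), (↑w⁻¹ : R) * (u * μ - v), ?_⟩
  have hw1 : (↑w⁻¹ : R) * w = 1 := by simp
  linear_combination (↑w⁻¹ : R) * v * h1 - (↑w⁻¹ : R) * u * h2 + hw1 * (u * x + v * y) + huv

/-- three-term relation between the quotients `(x + μ y) / π`. -/
theorem exists_units_relation (hp : p.Prime) (hζ : IsPrimitiveRoot ζ p)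
    {x y a₁ a₂ a₃ μ₁ μ₂ μ₃ : R}
    (hμ₁ : μ₁ ∈ nthRootsFinset p (1 : R)) (hμ₂ : μ₂ ∈ nthRootsFinset p (1 : R))
    (hμ₃ : μ₃ ∈ nthRootsFinset p (1 : R)) (h12 : μ₁ ≠ μ₂) (h23 : μ₂ ≠ μ₃) (h31 : μ₃ ≠ μ₁)
    (e₁ : x + μ₁ * y = (ζ - 1) * a₁) (e₂ : x + μ₂ * y = (ζ - 1) * a₂)
    (e₃ : x + μ₃ * y = (ζ - 1) * a₃) :
    ∃ w₁ w₂ w₃ : Rˣ, (w₁ : R) * a₁ + w₂ * a₂ + w₃ * a₃ = 0 := by
  have hπ0 : ζ - 1 ≠ 0 := sub_ne_zero.2 (hζ.ne_one hp.one_lt)
  obtain ⟨w₁, hw₁⟩ := exists_unit_root_sub hp hζ hμ₂ hμ₃ h23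
  obtain ⟨w₂, hw₂⟩ := exists_unit_root_sub hp hζ hμ₃ hμ₁ h31
  obtain ⟨w₃, hw₃⟩ := exists_unit_root_sub hp hζ hμ₁ hμ₂ h12
  refine ⟨w₁, w₂, w₃, ?_⟩
  apply mul_left_cancel₀ (pow_ne_zero 2 hπ0)
  linear_combination (-((ζ - 1) * a₁)) * hw₁ - ((ζ - 1) * a₂) * hw₂ - ((ζ - 1) * a₃) * hw₃
    - (μ₂ - μ₃) * e₁ - (μ₃ - μ₁) * e₂ - (μ₁ - μ₂) * e₃

theorem exists_associated_pow [IsPrincipalIdealRing R] {s : Finset R} {A : R → R} {c : R}
    {ε : Rˣ} {k : ℕ}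
    (hcop : ∀ μ ∈ s, ∀ ν ∈ s, μ ≠ ν → IsCoprime (A μ) (A ν))
    (hprod : ∏ μ ∈ s, A μ = ε * c ^ k) {μ : R} (hμ : μ ∈ s) :
    ∃ d : R, Associated (d ^ k) (A μ) := by
  classical
  have h1 : A μ * ∏ ν ∈ s.erase μ, A ν = ε * c ^ k := by
    rw [Finset.mul_prod_erase s A hμ, hprod]
  have h2 : IsCoprime (A μ) (∏ ν ∈ s.erase μ, A ν) :=
    IsCoprime.prod_right fun ν hν =>
      hcop μ hμ ν (Finset.mem_of_mem_erase hν) (Finset.ne_of_mem_erase hν).symm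
  refine exists_associated_pow_of_associated_pow_mul h2 (c := c) ?_
  rw [h1]
  exact ⟨ε, by rw [mul_comm]⟩

theorem descent_step [IsPrincipalIdealRing R] (hp : p.Prime) (hp2 : p ≠ 2)
    (hζ : IsPrimitiveRoot ζ p) (hπ : Prime (ζ - 1))
    (hpπ : (p : R) ∣ (ζ - 1) ^ (p - 1)) (hres : ∀ w : R, ∃ n : ℤ, ζ - 1 ∣ w - n)
    (hK : ∀ u : Rˣ, (∃ n : ℤ, (p : R) ∣ (u : R) - n) → ∃ v : Rˣ, u = v ^ p)
    {x y z : R} {ε : Rˣ} (hxy : IsCoprime x y) (hz : ζ - 1 ∣ z) (hsq : (ζ - 1) ^ 2 ∣ x + y)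
    (h : x ^ p + y ^ p = ε * z ^ p) (N : ℕ) (hN : ¬ (ζ - 1) ^ ((N + 2) * p) ∣ z ^ p) :
    ∃ (x' y' z' : R) (ε' : Rˣ), IsCoprime x' y' ∧ ζ - 1 ∣ z' ∧
      ¬ (ζ - 1) ^ ((N + 1) * p) ∣ z' ^ p ∧ x' ^ p + y' ^ p = ε' * z' ^ p := by
  classical
  have hπ0 : ζ - 1 ≠ 0 := hπ.ne_zero
  have hp3 : 3 ≤ p := by have := hp.two_le; omega
  have hy : ¬ ζ - 1 ∣ y := not_pi_dvd_right hp hπ hxy hz h
  have hall := pi_dvd_all hp hp2 hζ hπ hz h
  have hex : ∀ μ : R, ∃ a : R, μ ∈ nthRootsFinset p (1 : R) → x + μ * y = (ζ - 1) * a := by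
    intro μ
    by_cases hμ : μ ∈ nthRootsFinset p (1 : R)
    · obtain ⟨a, ha⟩ := hall μ hμ
      exact ⟨a, fun _ => ha⟩
    · exact ⟨0, fun h => absurd h hμ⟩
  choose A hA using hex
  -- the three roots
  have h1mem : (1 : R) ∈ nthRootsFinset p (1 : R) :=
    (mem_nthRootsFinset hp.pos 1).2 (one_pow _)
  have hζmem : ζ ∈ nthRootsFinset p (1 : R) := hζ.mem_nthRootsFinset hp.pos
  have hζ2mem : ζ ^ 2 ∈ nthRootsFinset p (1 : R) :=
    (mem_nthRootsFinset hp.pos 1).2 (by rw [← pow_mul, mul_comm, pow_mul, hζ.pow_eq_one, one_pow])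
  have hζ1 : ζ ≠ 1 := hζ.ne_one hp.one_lt
  have hζ21 : ζ ^ 2 ≠ 1 := hζ.pow_ne_one_of_pos_of_lt (by norm_num) (by omega)
  have hζ2ζ : ζ ^ 2 ≠ ζ := by
    intro h'
    have : ζ * (ζ - 1) = 0 := by linear_combination h'
    rcases mul_eq_zero.1 this with h0 | h0
    · exact hζ.ne_zero hp.ne_zero h0
    · exact hπ0 h0
  have hcop : ∀ μ ∈ nthRootsFinset p (1 : R), ∀ ν ∈ nthRootsFinset p (1 : R), μ ≠ ν →
      IsCoprime (A μ) (A ν) :=
    fun μ hμ ν hν hne => isCoprime_quot hp hζ hxy hμ hν hne (hA μ hμ) (hA ν hν)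
  -- product
  obtain ⟨z₁, rfl⟩ := hz
  have hprod : ∏ μ ∈ nthRootsFinset p (1 : R), A μ = ε * z₁ ^ p := by
    apply mul_left_cancel₀ (pow_ne_zero p hπ0)
    have : ∏ μ ∈ nthRootsFinset p (1 : R), (x + μ * y) =
        (ζ - 1) ^ p * ∏ μ ∈ nthRootsFinset p (1 : R), A μ := by
      rw [Finset.prod_congr rfl (fun μ hμ => hA μ hμ), Finset.prod_mul_distrib,
        Finset.prod_const, hζ.card_nthRootsFinset]
    rw [← this, ← hζ.pow_add_pow_eq_prod_add_mul x y (hp.odd_of_ne_two hp2), h, mul_pow]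
    ring
  obtain ⟨d₀, u₀, hd₀⟩ := exists_associated_pow hcop hprod h1mem
  obtain ⟨d₁, u₁, hd₁⟩ := exists_associated_pow hcop hprod hζmem
  obtain ⟨d₂, u₂, hd₂⟩ := exists_associated_pow hcop hprod hζ2mem
  obtain ⟨w₁, w₂, w₃, hrel⟩ := exists_units_relation hp hζ hζmem hζ2mem h1mem hζ2ζ.symm hζ21
    hζ1.symm (hA ζ hζmem) (hA _ hζ2mem) (hA 1 h1mem)
  have hA1 : ζ - 1 ∣ A 1 := by
    have := hA 1 h1mem
    rw [one_mul] at this
    rw [this, pow_two] at hsq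
    exact (mul_dvd_mul_iff_left hπ0).1 hsq
  have hd₀π : ζ - 1 ∣ d₀ := by
    rw [← hd₀] at hA1
    exact hπ.dvd_of_dvd_pow ((IsUnit.dvd_mul_right u₀.isUnit).1 hA1)
  have hd₂π : ¬ ζ - 1 ∣ d₂ := by
    intro hd
    have hA2 : ζ - 1 ∣ A (ζ ^ 2) := by rw [← hd₂]; exact (dvd_pow hd hp.ne_zero).mul_right _
    obtain ⟨w, hw⟩ := exists_unit_root_sub hp hζ hζ2mem h1mem hζ21
    have hAA : A (ζ ^ 2) - A 1 = w * y := by
      apply mul_left_cancel₀ hπ0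
      linear_combination (-1 : R) * hA _ hζ2mem + hA 1 h1mem + y * hw
    have : ζ - 1 ∣ (w : R) * y := by rw [← hAA]; exact dvd_sub hA2 hA1
    exact hy ((IsUnit.dvd_mul_left w.isUnit).1 this)
  -- the new equation
  have hu : (↑(w₁ * u₁)⁻¹ : R) * (↑w₁ * ↑u₁) = 1 := by
    rw [← Units.val_mul, Units.inv_mul]
  have hnew : d₁ ^ p + (↑(w₂ * u₂ * (w₁ * u₁)⁻¹) : R) * d₂ ^ p =
      (↑(-(w₃ * u₀ * (w₁ * u₁)⁻¹)) : R) * d₀ ^ p := by
    rw [← hd₀, ← hd₁, ← hd₂] at hrel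
    simp only [Units.val_mul, Units.val_neg]
    linear_combination (↑(w₁ * u₁)⁻¹ : R) * hrel - (d₁ ^ p) * hu
  -- Kummer
  obtain ⟨n₁, hn₁⟩ := exists_int_pow_sub hp hpπ hres d₁
  obtain ⟨n₂, hn₂⟩ := exists_int_pow_sub hp hpπ hres d₂
  have hpd₀ : (p : R) ∣ d₀ ^ p := (p_dvd_pi_pow hp hpπ).trans (pow_dvd_pow_of_dvd hd₀π p)
  have hn₂' : ¬ (p : ℤ) ∣ n₂ := by
    intro hdiv
    have h1 : (p : R) ∣ (n₂ : R) := by
      obtain ⟨k, rfl⟩ := hdiv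
      push_cast
      exact dvd_mul_right _ _
    have h2 : (p : R) ∣ d₂ ^ p := by
      have := dvd_add hn₂ h1
      simpa using this
    exact hd₂π (hπ.dvd_of_dvd_pow (pi_dvd_of_p_dvd hp hζ h2))
  have hsum : (p : R) ∣ n₁ + (↑(w₂ * u₂ * (w₁ * u₁)⁻¹) : R) * n₂ := by
    have : (n₁ : R) + (↑(w₂ * u₂ * (w₁ * u₁)⁻¹) : R) * n₂ =
        (↑(-(w₃ * u₀ * (w₁ * u₁)⁻¹)) : R) * d₀ ^ p - (d₁ ^ p - n₁)
          - (↑(w₂ * u₂ * (w₁ * u₁)⁻¹) : R) * (d₂ ^ p - n₂) := by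
      linear_combination hnew
    rw [this]
    exact dvd_sub (dvd_sub (hpd₀.mul_left _) hn₁) (hn₂.mul_left _)
  obtain ⟨v, hv⟩ := hK _ (exists_int_sub_of_add_mul hp hsum hn₂')
  refine ⟨d₁, v * d₂, d₀, -(w₃ * u₀ * (w₁ * u₁)⁻¹), ?_, hd₀π, ?_, ?_⟩
  · have h12 : IsCoprime (A ζ) (A (ζ ^ 2)) := hcop ζ hζmem _ hζ2mem hζ2ζ.symm
    rw [← hd₁, ← hd₂] at h12
    exact (isCoprime_mul_unit_left_right v.isUnit d₁ d₂).2
      ((IsCoprime.pow_iff hp.pos hp.pos).1 h12.of_mul_left_left.of_mul_right_left)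
  · intro hdiv
    apply hN
    have h1 : (ζ - 1) ^ ((N + 1) * p) ∣ ε * z₁ ^ p := by
      rw [← hprod]
      exact (hdiv.trans (hd₀ ▸ dvd_mul_right _ _)).trans (Finset.dvd_prod_of_mem A h1mem)
    have h2 : (ζ - 1) ^ ((N + 1) * p) ∣ z₁ ^ p := (IsUnit.dvd_mul_left ε.isUnit).1 h1
    rw [mul_pow, show (N + 2) * p = p + (N + 1) * p by ring, pow_add]
    exact mul_dvd_mul_left _ h2
  · rw [mul_pow, ← hnew, hv]
    push_cast
    ring

theorem descent [IsPrincipalIdealRing R] (hp : p.Prime) (hp2 : p ≠ 2)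
    (hζ : IsPrimitiveRoot ζ p) (hπ : Prime (ζ - 1))
    (hpπ : (p : R) ∣ (ζ - 1) ^ (p - 1)) (hres : ∀ w : R, ∃ n : ℤ, ζ - 1 ∣ w - n)
    (hcard : Nat.card (R ⧸ Ideal.span {ζ - 1}) = p)
    (hK : ∀ u : Rˣ, (∃ n : ℤ, (p : R) ∣ (u : R) - n) → ∃ v : Rˣ, u = v ^ p) (N : ℕ) :
    ∀ (x y z : R) (ε : Rˣ), IsCoprime x y → ζ - 1 ∣ z →
      ¬ (ζ - 1) ^ ((N + 1) * p) ∣ z ^ p → x ^ p + y ^ p ≠ ε * z ^ p := by
  induction N with
  | zero =>
    intro x y z ε _ hz hN _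
    apply hN
    rw [zero_add, one_mul]
    exact pow_dvd_pow_of_dvd hz p
  | succ N ih =>
    intro x y z ε hxy hz hN h
    have hy := not_pi_dvd_right hp hπ hxy hz h
    have hall := pi_dvd_all hp hp2 hζ hπ hz h
    obtain ⟨μ₀, hμ₀, hsq⟩ := exists_sq_dvd hp hζ hcard hy hall
    have hμ₀p : μ₀ ^ p = 1 := (mem_nthRootsFinset hp.pos 1).1 hμ₀
    have hμ₀u : IsUnit μ₀ := IsUnit.of_pow_eq_one hμ₀p hp.ne_zero
    have hxy' : IsCoprime x (μ₀ * y) := (isCoprime_mul_unit_left_right hμ₀u x y).2 hxy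
    have h' : x ^ p + (μ₀ * y) ^ p = ε * z ^ p := by rw [mul_pow, hμ₀p, one_mul, h]
    obtain ⟨x', y', z', ε', hxy'', hz', hN', h''⟩ :=
      descent_step hp hp2 hζ hπ hpπ hres hK hxy' hz hsq h' N hN
    exact ih x' y' z' ε' hxy'' hz' hN' h''

/-- The abstract second case: no solutions of `x ^ p + y ^ p = ε z ^ p` with `π ∣ z ≠ 0`
and `x`, `y` coprime. -/
theorem no_solution [IsPrincipalIdealRing R] (hp : p.Prime) (hp2 : p ≠ 2)
    (hζ : IsPrimitiveRoot ζ p) (hπ : Prime (ζ - 1))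
    (hpπ : (p : R) ∣ (ζ - 1) ^ (p - 1)) (hres : ∀ w : R, ∃ n : ℤ, ζ - 1 ∣ w - n)
    (hcard : Nat.card (R ⧸ Ideal.span {ζ - 1}) = p)
    (hK : ∀ u : Rˣ, (∃ n : ℤ, (p : R) ∣ (u : R) - n) → ∃ v : Rˣ, u = v ^ p)
    {x y z : R} {ε : Rˣ} (hxy : IsCoprime x y) (hz : ζ - 1 ∣ z) (hz0 : z ≠ 0) :
    x ^ p + y ^ p ≠ ε * z ^ p := by
  have hfin : FiniteMultiplicity (ζ - 1) (z ^ p) :=
    FiniteMultiplicity.of_not_isUnit hπ.not_isUnit (pow_ne_zero p hz0)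
  obtain ⟨M, hM⟩ := hfin
  apply descent hp hp2 hζ hπ hpπ hres hcard hK M x y z ε hxy hz
  intro hdiv
  apply hM
  exact (pow_dvd_pow _ (by nlinarith [hp.pos] : M + 1 ≤ (M + 1) * p)).trans hdiv

/-- every residue class modulo `π` contains a rational integer. -/
theorem exists_int_sub_of_card (hp : p.Prime) (hζ : IsPrimitiveRoot ζ p) (hπ : Prime (ζ - 1))
    (hcard : Nat.card (R ⧸ Ideal.span {ζ - 1}) = p) (w : R) : ∃ n : ℤ, ζ - 1 ∣ w - n := by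
  classical
  have hfin : Finite (R ⧸ Ideal.span {ζ - 1}) :=
    Nat.finite_of_card_ne_zero (by rw [hcard]; exact hp.ne_zero)
  let _ : Fintype (R ⧸ Ideal.span {ζ - 1}) := Fintype.ofFinite _
  let f : ℕ → R ⧸ Ideal.span {ζ - 1} := fun i => Ideal.Quotient.mk _ (i : R)
  have hinj : Set.InjOn f (Finset.range p : Set ℕ) := by
    intro i hi j hj hfe
    have hd : ζ - 1 ∣ (i : R) - (j : R) := by
      rw [← Ideal.mem_span_singleton, ← Ideal.Quotient.eq]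
      exact hfe
    have hd' : ζ - 1 ∣ (((i : ℤ) - (j : ℤ) : ℤ) : R) := by
      push_cast
      exact hd
    rw [pi_dvd_intCast_iff hp hζ hπ] at hd'
    have hi' : i < p := Finset.mem_range.1 (Finset.mem_coe.1 hi)
    have hj' : j < p := Finset.mem_range.1 (Finset.mem_coe.1 hj)
    have := Int.eq_zero_of_abs_lt_dvd hd' (abs_lt.2 ⟨by omega, by omega⟩)
    omega
  have himg : (Finset.range p).image f = Finset.univ := by
    apply Finset.eq_univ_of_card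
    rw [Finset.card_image_of_injOn hinj, Finset.card_range, ← Nat.card_eq_fintype_card, hcard]
  have hw : Ideal.Quotient.mk (Ideal.span {ζ - 1}) w ∈ (Finset.range p).image f := by
    rw [himg]; exact Finset.mem_univ _
  obtain ⟨i, -, hi⟩ := Finset.mem_image.1 hw
  refine ⟨(i : ℤ), ?_⟩
  rw [← Ideal.mem_span_singleton, ← Ideal.Quotient.eq]
  push_cast
  exact hi.symm

end Descent

section Concrete

open NumberField

/-- **Second case of Fermat's last theorem** for a prime `p` such that the ring of integers of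
the `p`-th cyclotomic field is principal and satisfies Kummer's lemma. -/
theorem caseII {p : ℕ} [Fact p.Prime] (hp5 : 5 ≤ p) {K : Type} [Field K] [NumberField K]
    [IsCyclotomicExtension {p} ℚ K] [IsPrincipalIdealRing (𝓞 K)] (hK : KummerLemma p K)
    {a b c : ℤ} (hab : IsCoprime a b) (hc0 : c ≠ 0) (hpc : (p : ℤ) ∣ c) :
    a ^ p + b ^ p ≠ c ^ p := by
  intro h
  have hp : p.Prime := Fact.out
  have hp2 : p ≠ 2 := by omega
  obtain ⟨ζ, hζ⟩ := IsCyclotomicExtension.exists_isPrimitiveRoot ℚ K (Set.mem_singleton p)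
    hp.ne_zero
  have hζ' := hζ.toInteger_isPrimitiveRoot
  have hπ := hζ.zeta_sub_one_prime'
  have hpπ : (p : 𝓞 K) ∣ (hζ.toInteger - 1) ^ (p - 1) :=
    (IsCyclotomicExtension.Rat.associated_zeta_sub_one_pow_prime p hζ).symm.dvd
  have hcard : Nat.card (𝓞 K ⧸ Ideal.span {hζ.toInteger - 1}) = p := by
    rw [hζ.card_quotient_toInteger_sub_one, hζ.norm_toInteger_sub_one_of_prime_ne_two' hp2,
      Int.natAbs_natCast]
  have hres := exists_int_sub_of_card hp hζ' hπ hcard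
  have hz : hζ.toInteger - 1 ∣ ((c : ℤ) : 𝓞 K) := (pi_dvd_intCast_iff hp hζ' hπ).2 hpc
  have hz0 : ((c : ℤ) : 𝓞 K) ≠ 0 := Int.cast_ne_zero.2 hc0
  refine no_solution hp hp2 hζ' hπ hpπ hres hcard hK (x := (a : 𝓞 K)) (y := (b : 𝓞 K))
    (ε := 1) hab.intCast hz hz0 ?_
  rw [Units.val_one, one_mul]
  exact_mod_cast congrArg (Int.cast : ℤ → 𝓞 K) h

end Concrete

end Fermat.Agent.KummerLib.CaseII
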