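import Mathlib

/-!
# Sophie Germain's theorem (first case of Fermat's Last Theorem)

If `p` is an odd prime and `q` an auxiliary prime such that
* `x ^ p + y ^ p + z ^ p = 0` in `ZMod q` forces one of `x, y, z` to vanish, and
* `p` is not a `p`-th power in `ZMod q`,
then `a ^ p + b ^ p = c ^ p` has no solution in integers prime to `p`.
-/

namespace Fermat.Agent.KummerLib.SophieGermain

open Finset

/-- The cofactor `(y ^ p + z ^ p) / (y + z)`. -/
def cof (p : ℕ) (y z : ℤ) : ℤ := ∑ i ∈ range p, y ^ i * (-z) ^ (p - 1 - i)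

theorem cof_mul {p : ℕ} (hodd : Odd p) (y z : ℤ) : cof p y z * (y + z) = y ^ p + z ^ p := by
  have := Commute.geom_sum₂_mul (Commute.all y (-z)) p
  rw [sub_neg_eq_add, hodd.neg_pow, sub_neg_eq_add] at this
  exact this

theorem dvd_cof_sub {p : ℕ} (hp : 0 < p) (y z : ℤ) : (y + z) ∣ cof p y z - p * y ^ (p - 1) := by
  have h : cof p y z - p * y ^ (p - 1) = ∑ i ∈ range p, y ^ i * ((-z) ^ (p - 1 - i) - y ^ (p - 1 - i)) := by
    have h2 : ∑ i ∈ range p, y ^ i * y ^ (p - 1 - i) = p * y ^ (p - 1) := by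
      have : ∀ i ∈ range p, y ^ i * y ^ (p - 1 - i) = y ^ (p - 1) := by
        intro i hi
        rw [← pow_add]
        congr 1
        have := mem_range.mp hi
        omega
      rw [sum_congr rfl this, sum_const, card_range, nsmul_eq_mul]
    simp only [mul_sub, sum_sub_distrib, h2, cof]
  rw [h]
  apply dvd_sum
  intro i _
  apply Dvd.dvd.mul_left
  have h3 : (-z - y) ∣ (-z) ^ (p - 1 - i) - y ^ (p - 1 - i) := sub_dvd_pow_sub_pow _ _ _
  have h4 : (y + z) ∣ (-z - y) := ⟨-1, by ring⟩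
  exact h4.trans h3

/-- The key factorisation step. -/
theorem exists_pow_eq {p : ℕ} (hp : p.Prime) (hp2 : p ≠ 2) {x y z : ℤ} (hyz : IsCoprime y z)
    (hpx : ¬ (p : ℤ) ∣ x) (h : x ^ p + y ^ p + z ^ p = 0) :
    ∃ A α : ℤ, y + z = A ^ p ∧ cof p y z = α ^ p := by
  have hodd : Odd p := hp.odd_of_ne_two hp2
  have hmul : cof p y z * (y + z) = (-x) ^ p := by
    rw [cof_mul hodd, hodd.neg_pow]; linarith
  have hpZ : Prime (p : ℤ) := Nat.prime_iff_prime_int.mp hp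
  have hc1 : IsCoprime (y + z) y := by
    have : IsCoprime (z + y * 1) y := hyz.symm.add_mul_left_left 1
    simpa [add_comm] using this
  have hc2 : IsCoprime (y + z) (p : ℤ) := by
    rw [isCoprime_comm, Prime.coprime_iff_not_dvd hpZ]
    intro hdiv
    have h1 : (p : ℤ) ∣ (-x) ^ p := by
      rw [← hmul]; exact Dvd.dvd.mul_left hdiv _
    have h2 := hpZ.dvd_of_dvd_pow h1
    exact hpx ((dvd_neg).mp h2)
  have hc3 : IsCoprime (y + z) ((p : ℤ) * y ^ (p - 1)) := hc2.mul_right hc1.pow_right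
  have hc4 : IsCoprime (y + z) (cof p y z) := by
    obtain ⟨T, hT⟩ := dvd_cof_sub hp.pos y z
    have h5 : cof p y z = (p : ℤ) * y ^ (p - 1) + (y + z) * T := by linarith
    rw [h5]
    exact hc3.add_mul_left_right T
  have hmul' : (y + z) * cof p y z = (-x) ^ p := by rw [mul_comm]; exact hmul
  obtain ⟨A, hA⟩ := Int.eq_pow_of_mul_eq_pow_odd_left hc4 hodd hmul'
  obtain ⟨α, hα⟩ := Int.eq_pow_of_mul_eq_pow_odd_right hc4 hodd hmul'
  exact ⟨A, α, hA, hα⟩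

theorem cast_cof_of_add_eq_zero {p q : ℕ} (hp : 0 < p) {y z : ℤ} (h : ((y + z : ℤ) : ZMod q) = 0) :
    ((cof p y z : ℤ) : ZMod q) = (p : ZMod q) * (y : ZMod q) ^ (p - 1) := by
  have hz : (-(z : ZMod q)) = (y : ZMod q) := by
    push_cast at h
    linear_combination (-1 : ZMod q) * h
  simp only [cof, Int.cast_sum, Int.cast_mul, Int.cast_pow, Int.cast_neg, hz]
  have : ∀ i ∈ range p, (y : ZMod q) ^ i * (y : ZMod q) ^ (p - 1 - i) = (y : ZMod q) ^ (p - 1) := by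
    intro i hi
    rw [← pow_add]
    congr 1
    have := mem_range.mp hi
    omega
  rw [sum_congr rfl this, sum_const, card_range, nsmul_eq_mul]

theorem cast_cof_of_left_eq_zero {p q : ℕ} (hp : 0 < p) {x y : ℤ} (h : ((x : ℤ) : ZMod q) = 0) :
    ((cof p x y : ℤ) : ZMod q) = (-(y : ZMod q)) ^ (p - 1) := by
  simp only [cof, Int.cast_sum, Int.cast_mul, Int.cast_pow, Int.cast_neg, h]
  rw [sum_eq_single 0]
  · simp
  · intro i _ hi
    rw [zero_pow hi, zero_mul]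
  · intro h0
    exact absurd (mem_range.mpr hp) h0

theorem not_both_zero {q : ℕ} [Fact q.Prime] {u v : ℤ} (huv : IsCoprime u v)
    (hu : ((u : ℤ) : ZMod q) = 0) (hv : ((v : ℤ) : ZMod q) = 0) : False := by
  obtain ⟨a, b, hab⟩ := huv
  have := congrArg (Int.cast : ℤ → ZMod q) hab
  push_cast at this
  rw [hu, hv] at this
  simp at this

/-- Core of Sophie Germain's argument, assuming `q ∣ x`. -/
theorem core {p q : ℕ} (hp : p.Prime) (hp2 : p ≠ 2) [Fact q.Prime]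
    (h1 : ∀ x y z : ZMod q, x ^ p + y ^ p + z ^ p = 0 → x = 0 ∨ y = 0 ∨ z = 0)
    (h2 : ∀ x : ZMod q, x ^ p ≠ (p : ZMod q))
    {x y z : ℤ} (hxy : IsCoprime x y) (hyz : IsCoprime y z) (hzx : IsCoprime z x)
    (hpx : ¬ (p : ℤ) ∣ x) (hpy : ¬ (p : ℤ) ∣ y) (hpz : ¬ (p : ℤ) ∣ z)
    (h : x ^ p + y ^ p + z ^ p = 0) (hqx : ((x : ℤ) : ZMod q) = 0) : False := by
  have hodd : Odd p := hp.odd_of_ne_two hp2
  obtain ⟨A, α, hA, hα⟩ := exists_pow_eq hp hp2 hyz hpx h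
  obtain ⟨B, β, hB, -⟩ := exists_pow_eq hp hp2 hzx hpy (show y ^ p + z ^ p + x ^ p = 0 by linarith)
  obtain ⟨C, γ, hC, hγ⟩ := exists_pow_eq hp hp2 hxy hpz (show z ^ p + x ^ p + y ^ p = 0 by linarith)
  -- `B ^ p + C ^ p + (-A) ^ p = 2 x ≡ 0`
  have hsum : (B : ZMod q) ^ p + (C : ZMod q) ^ p + (-(A : ZMod q)) ^ p = 0 := by
    have hint : B ^ p + C ^ p + (-A) ^ p = 2 * x := by
      rw [hodd.neg_pow, ← hA, ← hB, ← hC]; ring
    have := congrArg (Int.cast : ℤ → ZMod q) hint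
    push_cast at this
    rw [this, hqx, mul_zero]
  have hB' : (z : ZMod q) + (x : ZMod q) = (B : ZMod q) ^ p := by exact_mod_cast congrArg (Int.cast : ℤ → ZMod q) hB
  have hC' : (x : ZMod q) + (y : ZMod q) = (C : ZMod q) ^ p := by exact_mod_cast congrArg (Int.cast : ℤ → ZMod q) hC
  have hA' : (y : ZMod q) + (z : ZMod q) = (A : ZMod q) ^ p := by exact_mod_cast congrArg (Int.cast : ℤ → ZMod q) hA
  have hp0 : p ≠ 0 := hp.ne_zero
  rcases h1 _ _ _ hsum with hB0 | hC0 | hA0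
  · -- `q ∣ B`, so `q ∣ z`
    rw [hB0, zero_pow hp0, hqx, add_zero] at hB'
    exact not_both_zero hzx hB' hqx
  · rw [hC0, zero_pow hp0, hqx, zero_add] at hC'
    exact not_both_zero hxy hqx hC'
  · have hA0' : (A : ZMod q) = 0 := neg_eq_zero.mp hA0
    rw [hA0', zero_pow hp0] at hA'
    have hyz0 : ((y + z : ℤ) : ZMod q) = 0 := by push_cast; exact hA'
    have e1 := cast_cof_of_add_eq_zero (q := q) hp.pos hyz0
    have e2 := cast_cof_of_left_eq_zero (q := q) (y := y) hp.pos hqx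
    rw [hα] at e1
    rw [hγ] at e2
    push_cast at e1 e2
    have heven : Even (p - 1) := by
      obtain ⟨k, hk⟩ := hodd
      exact ⟨k, by omega⟩
    rw [heven.neg_pow] at e2
    have hy0 : (y : ZMod q) ≠ 0 := fun hy => not_both_zero hxy hqx hy
    have hγ0 : (γ : ZMod q) ≠ 0 := by
      intro h0
      rw [h0, zero_pow hp0] at e2
      exact hy0 (pow_eq_zero_iff (n := p - 1) (by
        have := hp.two_le; omega) |>.mp e2.symm)
    apply h2 ((α : ZMod q) * (γ : ZMod q)⁻¹)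
    rw [mul_pow, inv_pow, e1, e2]
    field_simp

theorem sum_ne_zero {p q : ℕ} (hp : p.Prime) (hp2 : p ≠ 2) [Fact q.Prime]
    (h1 : ∀ x y z : ZMod q, x ^ p + y ^ p + z ^ p = 0 → x = 0 ∨ y = 0 ∨ z = 0)
    (h2 : ∀ x : ZMod q, x ^ p ≠ (p : ZMod q))
    {x y z : ℤ} (hxy : IsCoprime x y) (hyz : IsCoprime y z) (hzx : IsCoprime z x)
    (hpx : ¬ (p : ℤ) ∣ x) (hpy : ¬ (p : ℤ) ∣ y) (hpz : ¬ (p : ℤ) ∣ z) :
    x ^ p + y ^ p + z ^ p ≠ 0 := by
  intro h
  have hcast : (x : ZMod q) ^ p + (y : ZMod q) ^ p + (z : ZMod q) ^ p = 0 := by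
    have := congrArg (Int.cast : ℤ → ZMod q) h
    push_cast at this
    exact this
  rcases h1 _ _ _ hcast with hx | hy | hz
  · exact core hp hp2 h1 h2 hxy hyz hzx hpx hpy hpz h hx
  · exact core hp hp2 h1 h2 hyz hzx hxy hpy hpz hpx (by linarith) hy
  · exact core hp hp2 h1 h2 hzx hxy hyz hpz hpx hpy (by linarith) hz

/-- **Sophie Germain's theorem.** -/
theorem sophieGermain {p q : ℕ} (hp : p.Prime) (hp2 : p ≠ 2) (hq : q.Prime)
    (h1 : ∀ x y z : ZMod q, x ^ p + y ^ p + z ^ p = 0 → x = 0 ∨ y = 0 ∨ z = 0)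
    (h2 : ∀ x : ZMod q, x ^ p ≠ (p : ZMod q))
    {a b c : ℤ} (hab : IsCoprime a b) (ha : ¬ (p : ℤ) ∣ a) (hb : ¬ (p : ℤ) ∣ b)
    (hc : ¬ (p : ℤ) ∣ c) : a ^ p + b ^ p ≠ c ^ p := by
  have : Fact q.Prime := ⟨hq⟩
  intro h
  have hodd : Odd p := hp.odd_of_ne_two hp2
  have hp0 : 0 < p := hp.pos
  -- pairwise coprimality
  have hac : IsCoprime a c := by
    have h3 : IsCoprime (a ^ p) (b ^ p) := hab.pow
    have h4 : IsCoprime (a ^ p) (b ^ p + a ^ p * 1) := h3.add_mul_left_right 1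
    have h5 : b ^ p + a ^ p * 1 = c ^ p := by linarith
    rw [h5] at h4
    exact (IsCoprime.pow_iff hp0 hp0).mp h4
  have hbc : IsCoprime b c := by
    have h3 : IsCoprime (b ^ p) (a ^ p) := hab.symm.pow
    have h4 : IsCoprime (b ^ p) (a ^ p + b ^ p * 1) := h3.add_mul_left_right 1
    have h5 : a ^ p + b ^ p * 1 = c ^ p := by linarith
    rw [h5] at h4
    exact (IsCoprime.pow_iff hp0 hp0).mp h4
  refine sum_ne_zero hp hp2 h1 h2 (x := a) (y := b) (z := -c) hab hbc.neg_right hac.symm.neg_left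
    ha hb (by rwa [dvd_neg]) ?_
  rw [hodd.neg_pow]; linarith


theorem caseI_five {a b c : ℤ} (hab : IsCoprime a b) (ha : ¬ ((5 : ℕ) : ℤ) ∣ a)
    (hb : ¬ ((5 : ℕ) : ℤ) ∣ b) (hc : ¬ ((5 : ℕ) : ℤ) ∣ c) : a ^ 5 + b ^ 5 ≠ c ^ 5 := by
  have key : ∀ x : ZMod 11, x = 0 ∨ x ^ 5 = 1 ∨ x ^ 5 = -1 := by decide
  have h2 : ∀ x : ZMod 11, x ^ 5 ≠ ((5 : ℕ) : ZMod 11) := by decide
  have h1 : ∀ x y z : ZMod 11, x ^ 5 + y ^ 5 + z ^ 5 = 0 → x = 0 ∨ y = 0 ∨ z = 0 := by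
    intro x y z h
    rcases key x with hx | hx | hx
    · exact Or.inl hx
    all_goals
      rcases key y with hy | hy | hy
      · exact Or.inr (Or.inl hy)
      all_goals
        rcases key z with hz | hz | hz
        · exact Or.inr (Or.inr hz)
        all_goals (exfalso; rw [hx, hy, hz] at h; revert h; decide)
  exact sophieGermain (p := 5) (q := 11) (by norm_num) (by norm_num) (by norm_num) h1 h2 hab ha hb hc

theorem caseI_seven {a b c : ℤ} (hab : IsCoprime a b) (ha : ¬ ((7 : ℕ) : ℤ) ∣ a)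
    (hb : ¬ ((7 : ℕ) : ℤ) ∣ b) (hc : ¬ ((7 : ℕ) : ℤ) ∣ c) : a ^ 7 + b ^ 7 ≠ c ^ 7 := by
  have key : ∀ x : ZMod 29, x = 0 ∨ x ^ 7 = 1 ∨ x ^ 7 = -1 ∨ x ^ 7 = 12 ∨ x ^ 7 = -12 := by decide
  have h2 : ∀ x : ZMod 29, x ^ 7 ≠ ((7 : ℕ) : ZMod 29) := by decide
  have h1 : ∀ x y z : ZMod 29, x ^ 7 + y ^ 7 + z ^ 7 = 0 → x = 0 ∨ y = 0 ∨ z = 0 := by
    intro x y z h
    rcases key x with hx | hx | hx | hx | hx
    · exact Or.inl hx
    all_goals
      rcases key y with hy | hy | hy | hy | hy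
      · exact Or.inr (Or.inl hy)
      all_goals
        rcases key z with hz | hz | hz | hz | hz
        · exact Or.inr (Or.inr hz)
        all_goals (exfalso; rw [hx, hy, hz] at h; revert h; decide)
  exact sophieGermain (p := 7) (q := 29) (by norm_num) (by norm_num) (by norm_num) h1 h2 hab ha hb hc

theorem caseI_eleven {a b c : ℤ} (hab : IsCoprime a b) (ha : ¬ ((11 : ℕ) : ℤ) ∣ a)
    (hb : ¬ ((11 : ℕ) : ℤ) ∣ b) (hc : ¬ ((11 : ℕ) : ℤ) ∣ c) : a ^ 11 + b ^ 11 ≠ c ^ 11 := by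
  have key : ∀ x : ZMod 23, x = 0 ∨ x ^ 11 = 1 ∨ x ^ 11 = -1 := by decide
  have h2 : ∀ x : ZMod 23, x ^ 11 ≠ ((11 : ℕ) : ZMod 23) := by decide
  have h1 : ∀ x y z : ZMod 23, x ^ 11 + y ^ 11 + z ^ 11 = 0 → x = 0 ∨ y = 0 ∨ z = 0 := by
    intro x y z h
    rcases key x with hx | hx | hx
    · exact Or.inl hx
    all_goals
      rcases key y with hy | hy | hy
      · exact Or.inr (Or.inl hy)
      all_goals
        rcases key z with hz | hz | hz
        · exact Or.inr (Or.inr hz)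
        all_goals (exfalso; rw [hx, hy, hz] at h; revert h; decide)
  exact sophieGermain (p := 11) (q := 23) (by norm_num) (by norm_num) (by norm_num) h1 h2 hab ha hb hc

theorem caseI_thirteen {a b c : ℤ} (hab : IsCoprime a b) (ha : ¬ ((13 : ℕ) : ℤ) ∣ a)
    (hb : ¬ ((13 : ℕ) : ℤ) ∣ b) (hc : ¬ ((13 : ℕ) : ℤ) ∣ c) : a ^ 13 + b ^ 13 ≠ c ^ 13 := by
  have key : ∀ x : ZMod 53, x = 0 ∨ x ^ 13 = 1 ∨ x ^ 13 = -1 ∨ x ^ 13 = 23 ∨ x ^ 13 = -23 := by decide
  have h2 : ∀ x : ZMod 53, x ^ 13 ≠ ((13 : ℕ) : ZMod 53) := by decide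
  have h1 : ∀ x y z : ZMod 53, x ^ 13 + y ^ 13 + z ^ 13 = 0 → x = 0 ∨ y = 0 ∨ z = 0 := by
    intro x y z h
    rcases key x with hx | hx | hx | hx | hx
    · exact Or.inl hx
    all_goals
      rcases key y with hy | hy | hy | hy | hy
      · exact Or.inr (Or.inl hy)
      all_goals
        rcases key z with hz | hz | hz | hz | hz
        · exact Or.inr (Or.inr hz)
        all_goals (exfalso; rw [hx, hy, hz] at h; revert h; decide)
  exact sophieGermain (p := 13) (q := 53) (by norm_num) (by norm_num) (by norm_num) h1 h2 hab ha hb hc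

end Fermat.Agent.KummerLib.SophieGermain
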