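import Mathlib
import Fermat.Agent.KummerLib.Defs
import Fermat.Agent.KummerLib.CaseII
import Fermat.Agent.KummerLib.SophieGermain

/-!
# Kummer project: assembly

Fermat's last theorem for a prime exponent `p ≥ 5` such that the ring of integers of the `p`-th
cyclotomic field is principal, Kummer's lemma holds and the first case is known.
-/

set_option autoImplicit false

namespace Fermat.Agent.KummerLib.FLT

open NumberField

theorem isCoprime_right_of_eq {p : ℕ} (hp : 0 < p) {a b c : ℤ} (hab : IsCoprime a b)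
    (h : a ^ p + b ^ p = c ^ p) : IsCoprime c b := by
  have h3 : IsCoprime b (a ^ p + b * b ^ (p - 1)) := hab.symm.pow_right.add_mul_left_right _
  have h4 : a ^ p + b * b ^ (p - 1) = c ^ p := by
    rw [← pow_succ', Nat.sub_add_cancel hp]; exact h
  rw [h4] at h3
  exact ((IsCoprime.pow_right_iff hp).1 h3).symm

/-- Fermat's last theorem for the exponent `p` (coprime form), from the second case machinery
and the first case. -/
theorem flt_of_caseI {p : ℕ} [Fact p.Prime] (hp5 : 5 ≤ p) {K : Type} [Field K] [NumberField K]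
    [IsCyclotomicExtension {p} ℚ K] [IsPrincipalIdealRing (𝓞 K)] (hK : KummerLemma p K)
    (hI : ∀ {a b c : ℤ}, IsCoprime a b → ¬ (p : ℤ) ∣ a → ¬ (p : ℤ) ∣ b → ¬ (p : ℤ) ∣ c →
      a ^ p + b ^ p ≠ c ^ p)
    {a b c : ℤ} (ha : a ≠ 0) (hb : b ≠ 0) (hc : c ≠ 0) (hab : IsCoprime a b) :
    a ^ p + b ^ p ≠ c ^ p := by
  intro h
  have hp : p.Prime := Fact.out
  have hodd : Odd p := hp.odd_of_ne_two (by omega)
  by_cases hpc : (p : ℤ) ∣ c
  · exact CaseII.caseII hp5 hK hab hc hpc h
  by_cases hpa : (p : ℤ) ∣ a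
  · have hcb : IsCoprime c (-b) :=
      (isCoprime_right_of_eq hp.pos hab h).neg_right
    refine CaseII.caseII hp5 hK hcb ha hpa ?_
    rw [hodd.neg_pow]
    linear_combination -h
  by_cases hpb : (p : ℤ) ∣ b
  · have hca : IsCoprime c (-a) :=
      (isCoprime_right_of_eq hp.pos hab.symm (by linear_combination h)).neg_right
    refine CaseII.caseII hp5 hK hca hb hpb ?_
    rw [hodd.neg_pow]
    linear_combination -h
  exact hI hab hpa hpb hpc h

theorem isCoprime_of_gcd_eq_one {a b : ℤ} (h : gcd a b = 1) : IsCoprime a b := by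
  rw [Int.isCoprime_iff_gcd_eq_one]
  rw [← Int.coe_gcd] at h
  exact_mod_cast h

/-- Fermat's last theorem for the exponent `p`, stated for the concrete cyclotomic field. -/
theorem flt_of_cyclotomicField {p : ℕ} [Fact p.Prime] (hp5 : 5 ≤ p)
    [hpid : IsPrincipalIdealRing (𝓞 (CyclotomicField p ℚ))]
    (hK : KummerLemma p (CyclotomicField p ℚ))
    (hI : ∀ {a b c : ℤ}, IsCoprime a b → ¬ (p : ℤ) ∣ a → ¬ (p : ℤ) ∣ b → ¬ (p : ℤ) ∣ c →
      a ^ p + b ^ p ≠ c ^ p)
    {a b c : ℤ} (ha : a ≠ 0) (hb : b ≠ 0) (hc : c ≠ 0) (hab : gcd a b = 1) :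
    a ^ p + b ^ p ≠ c ^ p := by
  have hcyc : IsCyclotomicExtension {p} ℚ (CyclotomicField p ℚ) :=
    (inferInstance : @IsCyclotomicExtension {p} ℚ (CyclotomicField p ℚ) _ _
      (CyclotomicField.algebra p ℚ))
  exact flt_of_caseI hp5 hK hI ha hb hc (isCoprime_of_gcd_eq_one hab)

end Fermat.Agent.KummerLib.FLT
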