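import Mathlib

/-!
# A small computable model for truncated polynomial arithmetic

Coefficient lists `List ℕ` are evaluated by Horner's rule at an element `t` of a commutative
ring.  `tmul p m` multiplies two lists, truncates to length `m` and reduces the coefficients
modulo `p`; this is compatible with evaluation modulo `t ^ m` as soon as `t ^ m ∣ p`.
-/

namespace Fermat.Agent.KummerLib.KummerModel

variable {R : Type*} [CommRing R]

/-- Horner evaluation of a coefficient list at `t`. -/
def ev (t : R) : List ℕ → R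
  | [] => 0
  | a :: l => (a : R) + t * ev t l

/-- Coefficientwise addition of lists. -/
def ladd : List ℕ → List ℕ → List ℕ
  | [], g => g
  | a :: f, [] => a :: f
  | a :: f, b :: g => (a + b) :: ladd f g

/-- Scalar multiplication of a list. -/
def lsmul (a : ℕ) : List ℕ → List ℕ
  | [] => []
  | b :: g => (a * b) :: lsmul a g

/-- Polynomial multiplication of lists. -/
def lmul : List ℕ → List ℕ → List ℕ
  | [], _ => []
  | a :: f, g => ladd (lsmul a g) (0 :: lmul f g)

/-- Truncate to length `m` and reduce coefficients modulo `p`. -/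
def lred (p : ℕ) : ℕ → List ℕ → List ℕ
  | 0, _ => []
  | _ + 1, [] => []
  | m + 1, a :: f => (a % p) :: lred p m f

/-- Truncated multiplication. -/
def tmul (p m : ℕ) (f g : List ℕ) : List ℕ := lred p m (lmul f g)

/-- Truncated power. -/
def tpow (p m : ℕ) (f : List ℕ) : ℕ → List ℕ
  | 0 => [1]
  | n + 1 => tmul p m (tpow p m f n) f

@[simp] theorem ev_nil (t : R) : ev t [] = 0 := rfl

@[simp] theorem ev_cons (t : R) (a : ℕ) (l : List ℕ) : ev t (a :: l) = (a : R) + t * ev t l := rfl

theorem ev_ladd (t : R) : ∀ f g : List ℕ, ev t (ladd f g) = ev t f + ev t g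
  | [], g => by simp [ladd]
  | a :: f, [] => by simp [ladd]
  | a :: f, b :: g => by
      simp only [ladd, ev_cons, ev_ladd t f g]
      push_cast
      ring

theorem ev_lsmul (t : R) (a : ℕ) : ∀ g : List ℕ, ev t (lsmul a g) = (a : R) * ev t g
  | [] => by simp [lsmul]
  | b :: g => by
      simp only [lsmul, ev_cons, ev_lsmul t a g]
      push_cast
      ring

theorem ev_lmul (t : R) : ∀ f g : List ℕ, ev t (lmul f g) = ev t f * ev t g
  | [], g => by simp [lmul]
  | a :: f, g => by
      simp only [lmul, ev_ladd, ev_lsmul, ev_cons, ev_lmul t f g]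
      push_cast
      ring

theorem ev_lred (t : R) (p : ℕ) : ∀ (m : ℕ) (f : List ℕ),
    ∃ q r : R, ev t f - ev t (lred p m f) = (p : R) * q + t ^ m * r
  | 0, f => ⟨0, ev t f, by simp [lred]⟩
  | m + 1, [] => ⟨0, 0, by simp [lred]⟩
  | m + 1, a :: f => by
      obtain ⟨q, r, h⟩ := ev_lred t p m f
      refine ⟨((a / p : ℕ) : R) + t * q, r, ?_⟩
      have ha : (a : R) = (p : R) * ((a / p : ℕ) : R) + ((a % p : ℕ) : R) := by
        exact_mod_cast congrArg (Nat.cast : ℕ → R) (Nat.div_add_mod a p).symm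
      simp only [lred, ev_cons]
      linear_combination ha + t * h

theorem dvd_ev_sub_ev_lred {t : R} {p m : ℕ} (h : t ^ m ∣ (p : R)) (f : List ℕ) :
    t ^ m ∣ ev t f - ev t (lred p m f) := by
  obtain ⟨q, r, hqr⟩ := ev_lred t p m f
  rw [hqr]
  exact dvd_add (Dvd.dvd.mul_right h q) (dvd_mul_right _ _)

/-- `x` is represented by the list `f` modulo `t ^ m`. -/
def Rep (t : R) (m : ℕ) (x : R) (f : List ℕ) : Prop := t ^ m ∣ x - ev t f

theorem Rep.of_eq {t : R} {m : ℕ} {x : R} {f : List ℕ} (h : x = ev t f) : Rep t m x f := by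
  unfold Rep
  rw [h, sub_self]
  exact dvd_zero _

theorem Rep.mul {t : R} {p m : ℕ} (h : t ^ m ∣ (p : R)) {x y : R} {f g : List ℕ}
    (hx : Rep t m x f) (hy : Rep t m y g) : Rep t m (x * y) (tmul p m f g) := by
  unfold Rep at *
  have h1 : t ^ m ∣ ev t (lmul f g) - ev t (lred p m (lmul f g)) := dvd_ev_sub_ev_lred h _
  have h2 : x * y - ev t (tmul p m f g) =
      (x - ev t f) * y + ev t f * (y - ev t g) +
        (ev t (lmul f g) - ev t (lred p m (lmul f g))) := by
    rw [ev_lmul, tmul]
    ring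
  rw [h2]
  exact dvd_add (dvd_add (Dvd.dvd.mul_right hx _) (Dvd.dvd.mul_left hy _)) h1

theorem Rep.pow {t : R} {p m : ℕ} (h : t ^ m ∣ (p : R)) {x : R} {f : List ℕ}
    (hx : Rep t m x f) : ∀ n : ℕ, Rep t m (x ^ n) (tpow p m f n)
  | 0 => Rep.of_eq (by simp [tpow])
  | n + 1 => by
      rw [pow_succ]
      exact Rep.mul h (Rep.pow h hx n) hx

/-- The list `[c, 0, …, 0, e]` with `e` in position `k`. -/
def certList (c k e : ℕ) : List ℕ := c :: (List.replicate (k - 1) 0 ++ [e])

theorem ev_replicate_zero_append (t : R) (e : ℕ) : ∀ n : ℕ,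
    ev t (List.replicate n 0 ++ [e]) = (e : R) * t ^ n
  | 0 => by simp
  | n + 1 => by
      rw [List.replicate_succ, List.cons_append, ev_cons, ev_replicate_zero_append t e n]
      push_cast
      ring

theorem ev_certList (t : R) (c k e : ℕ) (hk : 1 ≤ k) :
    ev t (certList c k e) = (c : R) + (e : R) * t ^ k := by
  obtain ⟨n, rfl⟩ : ∃ n, k = n + 1 := ⟨k - 1, by omega⟩
  rw [certList, ev_cons, ev_replicate_zero_append]
  simp only [Nat.add_sub_cancel]
  ring

/-- A representation by a `certList` is the congruence `x ≡ c + e t ^ k mod t ^ (k + 1)`. -/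
theorem Rep.dvd_of_certList {t : R} {k : ℕ} {x : R} {f : List ℕ} (hx : Rep t (k + 1) x f)
    {c e : ℕ} (hf : f = certList c k e) (hk : 1 ≤ k) :
    t ^ (k + 1) ∣ x - ((c : R) + (e : R) * t ^ k) := by
  unfold Rep at hx
  rwa [hf, ev_certList t c k e hk] at hx

/-- The coefficient list of `((1 + t) ^ a - 1) / t`. -/
def geomL : ℕ → List ℕ
  | 0 => []
  | a + 1 => ladd [1] (ladd (geomL a) (0 :: geomL a))

theorem ev_geomL (z : R) : ∀ a : ℕ, ev (z - 1) (geomL a) = ∑ i ∈ Finset.range a, z ^ i
  | 0 => by simp [geomL]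
  | a + 1 => by
      rw [geom_sum_succ, ← ev_geomL z a]
      simp only [geomL, ev_ladd, ev_cons, ev_nil]
      push_cast
      ring

/-- The model of `(∏ⱼ ε_{a+j} ^ es[j]) * ζ ^ M`, where `ε_a = ∑_{i < a} ζ ^ i`. -/
def certL (p m M : ℕ) : ℕ → List ℕ → List ℕ
  | _, [] => tpow p m [1, 1] M
  | a, e :: es => tmul p m (tpow p m (geomL a) e) (certL p m M (a + 1) es)

end Fermat.Agent.KummerLib.KummerModel
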