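import Mathlib
import Fermat.Agent.KummerLib.KummerModel

namespace Fermat.Agent.KummerLib.KummerUnits

open NumberField NumberField.Units IsCyclotomicExtension.Rat

variable {p : ℕ} [hp : Fact p.Prime] {K : Type*} [Field K] [NumberField K]
  [hK : IsCyclotomicExtension {p} ℚ K] {ζ : K} (hζ : IsPrimitiveRoot ζ p)

local notation3 "λ" => hζ.toInteger - 1

include hζ in
/-- Every `p`-th power in `𝓞 K` is congruent to a rational integer modulo `p`. -/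
theorem exists_int_dvd_pow_sub (x : 𝓞 K) : ∃ n : ℤ, (p : 𝓞 K) ∣ x ^ p - n := by
  obtain ⟨f, rfl⟩ := hζ.integralPowerBasis.exists_eq_aeval' x
  rw [hζ.integralPowerBasis_gen]
  induction f using Polynomial.induction_on' with
  | add f g hf hg =>
    obtain ⟨n, a, hn⟩ := hf
    obtain ⟨m, b, hm⟩ := hg
    obtain ⟨r, hr⟩ := exists_add_pow_prime_eq hp.out (Polynomial.aeval hζ.toInteger f)
      (Polynomial.aeval hζ.toInteger g)
    refine ⟨n + m, a + b + Polynomial.aeval hζ.toInteger f * Polynomial.aeval hζ.toInteger g * r, ?_⟩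
    rw [map_add, hr]
    push_cast
    linear_combination hn + hm
  | monomial i a =>
    refine ⟨a ^ p, 0, ?_⟩
    rw [Polynomial.aeval_monomial, mul_pow, ← pow_mul, mul_comm i p, pow_mul,
      hζ.toInteger_isPrimitiveRoot.pow_eq_one, one_pow]
    simp

omit [NumberField K] hK in
theorem lam_pow_dvd_p {m : ℕ} (hm : m + 1 ≤ p) : (λ) ^ m ∣ (p : 𝓞 K) :=
  (pow_dvd_pow _ (by omega)).trans (associated_zeta_sub_one_pow_prime p hζ).dvd


/-- `x` is congruent to a rational integer modulo `λ ^ m`. -/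
def IntModPow (m : ℕ) (x : 𝓞 K) : Prop := ∃ n : ℤ, (λ) ^ m ∣ x - n

/-- `x ≡ c + e λ ^ k` modulo `λ ^ (k + 1)`. -/
def Lev (k : ℕ) (x : 𝓞 K) (c e : ℤ) : Prop :=
  (λ) ^ (k + 1) ∣ x - ((c : 𝓞 K) + (e : 𝓞 K) * (λ) ^ k)

omit [NumberField K] hK in
theorem IntModPow.one (m : ℕ) : IntModPow hζ m 1 := ⟨1, by simp⟩

omit [NumberField K] hK in
theorem IntModPow.mul {m : ℕ} {x y : 𝓞 K} (hx : IntModPow hζ m x) (hy : IntModPow hζ m y) :
    IntModPow hζ m (x * y) := by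
  obtain ⟨n, hn⟩ := hx
  obtain ⟨n', hn'⟩ := hy
  refine ⟨n * n', ?_⟩
  have : x * y - ((n * n' : ℤ) : 𝓞 K) = (x - n) * y + n * (y - n') := by push_cast; ring
  rw [this]
  exact dvd_add (Dvd.dvd.mul_right hn _) (Dvd.dvd.mul_left hn' _)

omit [NumberField K] hK in
theorem IntModPow.pow {m : ℕ} {x : 𝓞 K} (hx : IntModPow hζ m x) : ∀ a : ℕ, IntModPow hζ m (x ^ a)
  | 0 => by simpa using IntModPow.one hζ m
  | a + 1 => by
      rw [pow_succ]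
      exact (IntModPow.pow hx a).mul hζ hx

omit [NumberField K] hK in
theorem Lev.dvd_sub_int {k : ℕ} {x : 𝓞 K} {c e : ℤ} (h : Lev hζ k x c e) {m : ℕ} (hm : m ≤ k) :
    (λ) ^ m ∣ x - c := by
  have : x - (c : 𝓞 K) = (x - ((c : 𝓞 K) + (e : 𝓞 K) * (λ) ^ k)) + (e : 𝓞 K) * (λ) ^ k := by ring
  rw [this]
  exact dvd_add ((pow_dvd_pow _ (by omega)).trans h) (Dvd.dvd.mul_left (pow_dvd_pow _ hm) _)

omit [NumberField K] hK in
theorem Lev.mul_int {k : ℕ} {x y : 𝓞 K} {c e n : ℤ} (h : Lev hζ k x c e)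
    (hy : (λ) ^ (k + 1) ∣ y - n) : Lev hζ k (x * y) (c * n) (e * n) := by
  unfold Lev at *
  have : x * y - (((c * n : ℤ) : 𝓞 K) + ((e * n : ℤ) : 𝓞 K) * (λ) ^ k) =
      (x - ((c : 𝓞 K) + (e : 𝓞 K) * (λ) ^ k)) * y + ((c : 𝓞 K) + (e : 𝓞 K) * (λ) ^ k) * (y - n) := by
    push_cast; ring
  rw [this]
  exact dvd_add (Dvd.dvd.mul_right h _) (Dvd.dvd.mul_left hy _)

omit [NumberField K] hK in
theorem Lev.mul {k : ℕ} (hk : 1 ≤ k) {x y : 𝓞 K} {c e c' e' : ℤ} (h : Lev hζ k x c e)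
    (h' : Lev hζ k y c' e') : Lev hζ k (x * y) (c * c') (c * e' + c' * e) := by
  unfold Lev at *
  have : x * y - (((c * c' : ℤ) : 𝓞 K) + ((c * e' + c' * e : ℤ) : 𝓞 K) * (λ) ^ k) =
      (x - ((c : 𝓞 K) + (e : 𝓞 K) * (λ) ^ k)) * y +
        ((c : 𝓞 K) + (e : 𝓞 K) * (λ) ^ k) * (y - ((c' : 𝓞 K) + (e' : 𝓞 K) * (λ) ^ k)) +
        (λ) ^ (k + 1) * ((e : 𝓞 K) * e' * (λ) ^ (k - 1)) := by
    obtain ⟨j, rfl⟩ : ∃ j, k = j + 1 := ⟨k - 1, by omega⟩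
    simp only [Nat.add_sub_cancel, Int.cast_add, Int.cast_mul]
    ring
  rw [this]
  exact dvd_add (dvd_add (Dvd.dvd.mul_right h _) (Dvd.dvd.mul_left h' _)) (dvd_mul_right _ _)

omit [NumberField K] hK in
theorem Lev.pow_succ {k : ℕ} (hk : 1 ≤ k) {x : 𝓞 K} {c e : ℤ} (h : Lev hζ k x c e) :
    ∀ b : ℕ, Lev hζ k (x ^ (b + 1)) (c ^ (b + 1)) ((b + 1) * c ^ b * e)
  | 0 => by simpa using h
  | b + 1 => by
      have h1 := (Lev.pow_succ hk h b).mul hζ hk h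
      have e1 : c ^ (b + 1) * e + c * ((b + 1) * c ^ b * e) = ((b + 1 : ℕ) + 1) * c ^ (b + 1) * e := by
        push_cast; ring
      rw [e1, ← _root_.pow_succ, ← _root_.pow_succ] at h1
      exact h1

/-- If `X ≡ C + D λ ^ k` and `X` is congruent to an integer modulo `λ ^ (k + 1)`, then `p ∣ D`. -/
theorem Lev.dvd_of_int {k : ℕ} (hk : 1 ≤ k) (hkp : k + 2 ≤ p) {X : 𝓞 K} {C D n : ℤ}
    (h : Lev hζ k X C D) (hn : (λ) ^ (k + 1) ∣ X - n) : (p : ℤ) ∣ D := by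
  unfold Lev at h
  have h1 : (λ) ^ (k + 1) ∣ ((C - n : ℤ) : 𝓞 K) + (D : 𝓞 K) * (λ) ^ k := by
    have : ((C - n : ℤ) : 𝓞 K) + (D : 𝓞 K) * (λ) ^ k =
        (X - n) - (X - ((C : 𝓞 K) + (D : 𝓞 K) * (λ) ^ k)) := by push_cast; ring
    rw [this]
    exact dvd_sub hn h
  have h2 : (λ) ∣ ((C - n : ℤ) : 𝓞 K) := by
    have h3 : (λ) ∣ ((C - n : ℤ) : 𝓞 K) + (D : 𝓞 K) * (λ) ^ k :=
      (dvd_pow_self _ (by omega)).trans h1
    exact (dvd_add_left (Dvd.dvd.mul_left (dvd_pow_self _ (by omega)) _)).mp h3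
  have h4 : (p : ℤ) ∣ C - n := (zeta_sub_one_dvd_intCast_iff' p hζ).mp h2
  have h5 : (λ) ^ (k + 1) ∣ ((C - n : ℤ) : 𝓞 K) := by
    obtain ⟨q, hq⟩ := h4
    rw [hq]
    push_cast
    exact Dvd.dvd.mul_right (lam_pow_dvd_p hζ (by omega)) _
  have h6 : (λ) ^ (k + 1) ∣ (D : 𝓞 K) * (λ) ^ k := (dvd_add_right h5).mp h1
  rw [_root_.pow_succ, mul_comm ((λ) ^ k), mul_dvd_mul_iff_right
    (pow_ne_zero _ hζ.zeta_sub_one_prime'.ne_zero)] at h6
  exact (zeta_sub_one_dvd_intCast_iff' p hζ).mp h6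

theorem not_dvd_of_isUnit {u : 𝓞 K} (hu : IsUnit u) {n : ℤ} (h : (λ) ∣ u - n) : ¬ (p : ℤ) ∣ n := by
  intro hpn
  have h1 : (λ) ∣ (n : 𝓞 K) := (zeta_sub_one_dvd_intCast_iff' p hζ).mpr hpn
  have h2 : (λ) ∣ u := (dvd_sub_left h1).mp h   -- check
  exact hζ.zeta_sub_one_prime'.not_isUnit (isUnit_of_dvd_unit h2 hu)


/-- **Independence.** Units `w i` of strictly increasing levels `k i` (with `1 ≤ k i ≤ p - 2`)
are independent modulo the units congruent to a rational integer modulo `p`. -/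
theorem indep : ∀ (s : ℕ) (w : Fin s → (𝓞 K)ˣ) (k : Fin s → ℕ) (c e : Fin s → ℤ)
    (a : Fin s → ℕ), StrictMono k → (∀ i, 1 ≤ k i) → (∀ i, k i + 2 ≤ p) →
    (∀ i, ¬ (p : ℤ) ∣ e i) → (∀ i, Lev hζ (k i) (w i : 𝓞 K) (c i) (e i)) →
    (∃ n : ℤ, (p : 𝓞 K) ∣ (∏ i, (w i : 𝓞 K) ^ a i) - n) → ∀ i, p ∣ a i := by
  intro s
  induction s with
  | zero => intro w k c e a _ _ _ _ _ _ i; exact i.elim0
  | succ s ih =>
    intro w k c e a hk hk1 hkp he hL hV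
    rw [Fin.prod_univ_succ] at hV
    obtain ⟨n, hn⟩ := hV
    have hYu : IsUnit (∏ i : Fin s, (w i.succ : 𝓞 K) ^ a i.succ) := by
      have : (∏ i : Fin s, (w i.succ : 𝓞 K) ^ a i.succ) =
          ((∏ i : Fin s, (w i.succ) ^ a i.succ : (𝓞 K)ˣ) : 𝓞 K) := by
        push_cast; rfl
      rw [this]
      exact Units.isUnit _
    have hY1 : IntModPow hζ (k 0 + 1) (∏ i : Fin s, (w i.succ : 𝓞 K) ^ a i.succ) := by
      apply Finset.prod_induction _ (IntModPow hζ (k 0 + 1)) (fun _ _ => IntModPow.mul hζ)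
        (IntModPow.one hζ _)
      intro i _
      exact IntModPow.pow hζ ⟨c i.succ, (hL i.succ).dvd_sub_int hζ (hk (Fin.succ_pos i))⟩ _
    obtain ⟨nY, hnY⟩ := hY1
    have hpnY : ¬ (p : ℤ) ∣ nY :=
      not_dvd_of_isUnit hζ hYu ((dvd_pow_self _ (by omega)).trans hnY)
    have hpc : ¬ (p : ℤ) ∣ c 0 := by
      refine not_dvd_of_isUnit hζ (w 0).isUnit ?_
      have := (hL 0).dvd_sub_int hζ (hk1 0)
      rwa [pow_one] at this
    have h0 : p ∣ a 0 := by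
      rcases Nat.eq_zero_or_pos (a 0) with h | h
      · simp [h]
      · obtain ⟨b, hb⟩ : ∃ b, a 0 = b + 1 := ⟨a 0 - 1, by omega⟩
        have h1 := (Lev.pow_succ hζ (hk1 0) (hL 0) b).mul_int hζ hnY
        rw [← hb] at h1
        have h2 := Lev.dvd_of_int hζ (hk1 0) (hkp 0) h1
          ((lam_pow_dvd_p hζ (by have := hkp 0; omega)).trans hn)
        have hpZ : Prime (p : ℤ) := Nat.prime_iff_prime_int.mp hp.out
        rcases hpZ.dvd_or_dvd h2 with h3 | h3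
        · rcases hpZ.dvd_or_dvd h3 with h4 | h4
          · rcases hpZ.dvd_or_dvd h4 with h5 | h5
            · rw [hb]; exact_mod_cast h5
            · exact absurd (hpZ.dvd_of_dvd_pow h5) hpc
          · exact absurd h4 (he 0)
        · exact absurd h3 hpnY
    refine Fin.cases h0 ?_
    obtain ⟨q, hq⟩ := h0
    apply ih (fun i => w i.succ) (fun i => k i.succ) (fun i => c i.succ) (fun i => e i.succ)
      (fun i => a i.succ) (hk.comp (Fin.strictMono_succ)) (fun i => hk1 _) (fun i => hkp _)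
      (fun i => he _) (fun i => hL _)
    obtain ⟨n', hn'⟩ := exists_int_dvd_pow_sub hζ (((w 0 ^ q)⁻¹ : (𝓞 K)ˣ) : 𝓞 K)
    refine ⟨n * n', ?_⟩
    have key : (∏ i : Fin s, (w i.succ : 𝓞 K) ^ a i.succ) =
        ((w 0 : 𝓞 K) ^ a 0 * ∏ i : Fin s, (w i.succ : 𝓞 K) ^ a i.succ) *
          (((w 0 ^ q)⁻¹ : (𝓞 K)ˣ) : 𝓞 K) ^ p := by
      have h1 : (w 0 : 𝓞 K) ^ a 0 * (((w 0 ^ q)⁻¹ : (𝓞 K)ˣ) : 𝓞 K) ^ p = 1 := by
        rw [hq, mul_comm p q, pow_mul, ← mul_pow, ← Units.val_pow_eq_pow_val, Units.mul_inv,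
          one_pow]
      calc (∏ i : Fin s, (w i.succ : 𝓞 K) ^ a i.succ)
          = ((w 0 : 𝓞 K) ^ a 0 * (((w 0 ^ q)⁻¹ : (𝓞 K)ˣ) : 𝓞 K) ^ p) *
              ∏ i : Fin s, (w i.succ : 𝓞 K) ^ a i.succ := by rw [h1, one_mul]
        _ = _ := by ring
    have key2 : (∏ i : Fin s, (w i.succ : 𝓞 K) ^ a i.succ) - ((n * n' : ℤ) : 𝓞 K) =
        ((w 0 : 𝓞 K) ^ a 0 * ∏ i : Fin s, (w i.succ : 𝓞 K) ^ a i.succ - n) *
          (((w 0 ^ q)⁻¹ : (𝓞 K)ˣ) : 𝓞 K) ^ p + n * ((((w 0 ^ q)⁻¹ : (𝓞 K)ˣ) : 𝓞 K) ^ p - n') := by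
      nth_rewrite 1 [key]
      push_cast
      ring
    rw [key2]
    exact dvd_add (Dvd.dvd.mul_right hn _) (Dvd.dvd.mul_left hn' _)


omit hp [NumberField K] hK in
theorem zpow_eq_pow_val_mul {G : Type*} [Group G] (q : ℕ) [NeZero q] (y : G) (n : ℤ) :
    y ^ n = y ^ (n : ZMod q).val * (y ^ (n / (q : ℤ))) ^ q := by
  have h1 : ((n : ZMod q).val : ℤ) = n % q := ZMod.val_intCast n
  have h2 : n = ((n : ZMod q).val : ℤ) + q * (n / q) := by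
    rw [h1]; exact (Int.emod_add_mul_ediv n q).symm
  conv_lhs => rw [h2]
  rw [zpow_add, zpow_natCast, zpow_mul', zpow_natCast]

variable (p K) in
omit hK in
/-- By Dirichlet's unit theorem, the group of units modulo `p`-th powers has at most
`p ^ (rank K + 1)` elements. -/
theorem card_quot_le :
    Finite ((𝓞 K)ˣ ⧸ (powMonoidHom p : (𝓞 K)ˣ →* (𝓞 K)ˣ).range) ∧
      Nat.card ((𝓞 K)ˣ ⧸ (powMonoidHom p : (𝓞 K)ˣ →* (𝓞 K)ˣ).range) ≤ p ^ (rank K + 1) := by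
  classical
  obtain ⟨g, hg⟩ := IsCyclic.exists_generator (α := torsion K)
  let Ψ : ZMod p × (Fin (rank K) → ZMod p) →
      (𝓞 K)ˣ ⧸ (powMonoidHom p : (𝓞 K)ˣ →* (𝓞 K)ˣ).range := fun af =>
    QuotientGroup.mk ((g : (𝓞 K)ˣ) ^ af.1.val * ∏ i, fundSystem K i ^ (af.2 i).val)
  have hΨ : Function.Surjective Ψ := by
    intro q
    obtain ⟨x, rfl⟩ := QuotientGroup.mk_surjective q
    obtain ⟨⟨t, f⟩, hx, -⟩ := exist_unique_eq_mul_prod K x
    obtain ⟨m, hm⟩ := Subgroup.mem_zpowers_iff.mp (hg t)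
    refine ⟨((m : ZMod p), fun i => (f i : ZMod p)), ?_⟩
    apply QuotientGroup.eq.mpr
    refine ⟨(g : (𝓞 K)ˣ) ^ (m / (p : ℤ)) * ∏ i, fundSystem K i ^ (f i / (p : ℤ)), ?_⟩
    have h1 : ∏ i, fundSystem K i ^ f i =
        ∏ i, (fundSystem K i ^ (f i : ZMod p).val * (fundSystem K i ^ (f i / (p : ℤ))) ^ p) :=
      Finset.prod_congr rfl (fun i _ => zpow_eq_pow_val_mul p _ _)
    have h2 : (t : (𝓞 K)ˣ) = (g : (𝓞 K)ˣ) ^ m := by rw [← hm, Subgroup.coe_zpow]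
    have hx2 : x = ((g : (𝓞 K)ˣ) ^ (m : ZMod p).val * ∏ i, fundSystem K i ^ (f i : ZMod p).val) *
        ((g : (𝓞 K)ˣ) ^ (m / (p : ℤ)) * ∏ i, fundSystem K i ^ (f i / (p : ℤ))) ^ p := by
      rw [hx]
      dsimp only
      rw [h2, h1, Finset.prod_mul_distrib, Finset.prod_pow, zpow_eq_pow_val_mul p (g : (𝓞 K)ˣ) m,
        mul_pow, mul_mul_mul_comm]
    rw [powMonoidHom_apply]
    conv_rhs => rw [hx2]
    rw [inv_mul_cancel_left]
  refine ⟨Finite.of_surjective Ψ hΨ, ?_⟩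
  have h3 := Nat.card_le_card_of_surjective Ψ hΨ
  rwa [Nat.card_prod, Nat.card_fun, Nat.card_zmod, Nat.card_fin, ← pow_succ'] at h3

include hζ in
theorem intMod_mul_pow {x : 𝓞 K} (hx : ∃ n : ℤ, (p : 𝓞 K) ∣ x - n) (y : 𝓞 K) :
    ∃ n : ℤ, (p : 𝓞 K) ∣ x * y ^ p - n := by
  obtain ⟨n, hn⟩ := hx
  obtain ⟨n', hn'⟩ := exists_int_dvd_pow_sub hζ y
  refine ⟨n * n', ?_⟩
  have : x * y ^ p - ((n * n' : ℤ) : 𝓞 K) = (x - n) * y ^ p + n * (y ^ p - n') := by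
    push_cast; ring
  rw [this]
  exact dvd_add (Dvd.dvd.mul_right hn _) (Dvd.dvd.mul_left hn' _)

/-- **Kummer's lemma from a certificate.**  If there are `s ≥ rank K + 1` units of strictly
increasing levels `1 ≤ k i ≤ p - 2`, then every unit congruent to a rational integer modulo `p`
is a `p`-th power. -/
theorem kummer_of_cert (s : ℕ) (hs : rank K + 1 ≤ s) (w : Fin s → (𝓞 K)ˣ) (k : Fin s → ℕ)
    (c e : Fin s → ℤ) (hk : StrictMono k) (hk1 : ∀ i, 1 ≤ k i) (hkp : ∀ i, k i + 2 ≤ p)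
    (he : ∀ i, ¬ (p : ℤ) ∣ e i) (hL : ∀ i, Lev hζ (k i) (w i : 𝓞 K) (c i) (e i))
    (u : (𝓞 K)ˣ) (hu : ∃ n : ℤ, (p : 𝓞 K) ∣ (u : 𝓞 K) - n) : ∃ v : (𝓞 K)ˣ, u = v ^ p := by
  classical
  obtain ⟨hfin, hcard⟩ := card_quot_le p K
  -- independence, for units
  have key : ∀ (a : Fin s → ℕ) (v y : (𝓞 K)ˣ), (∏ i, w i ^ a i) = y * v ^ p →
      (∃ n : ℤ, (p : 𝓞 K) ∣ (y : 𝓞 K) - n) → ∀ i, p ∣ a i := by
    intro a v y hy hyV
    apply indep hζ s w k c e a hk hk1 hkp he hL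
    have h1 : (∏ i, (w i : 𝓞 K) ^ a i) = (y : 𝓞 K) * (v : 𝓞 K) ^ p := by
      have := congrArg (fun z : (𝓞 K)ˣ => (z : 𝓞 K)) hy
      simpa using this
    rw [h1]
    exact intMod_mul_pow hζ hyV _
  let Φ : (Fin s → ZMod p) → (𝓞 K)ˣ ⧸ (powMonoidHom p : (𝓞 K)ˣ →* (𝓞 K)ˣ).range := fun a =>
    QuotientGroup.mk (∏ i, w i ^ (a i).val)
  have hΦ : Function.Injective Φ := by
    intro a b hab
    obtain ⟨v, hv⟩ := QuotientGroup.eq.mp hab
    rw [powMonoidHom_apply] at hv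
    obtain ⟨p', hp'⟩ : ∃ p', p = p' + 1 := ⟨p - 1, by have := hp.out.pos; omega⟩
    have h1 : (∏ i, w i ^ ((b i).val + p' * (a i).val)) = 1 * ((∏ i, w i ^ (a i).val) * v) ^ p := by
      have h2 : (∏ i, w i ^ (b i).val) = (∏ i, w i ^ (a i).val) * v ^ p := by
        rw [hv, mul_inv_cancel_left]
      have aux : ∀ (A V : (𝓞 K)ˣ) (n m : ℕ), n = m + 1 →
          A * V ^ n * A ^ m = 1 * (A * V) ^ n := by
        intro A V n m h
        subst h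
        rw [one_mul, mul_pow, pow_succ A m, mul_comm (A ^ m) A, mul_assoc, mul_assoc,
          mul_comm (V ^ (m + 1))]
      simp_rw [pow_add, mul_comm p', pow_mul]
      rw [Finset.prod_mul_distrib, Finset.prod_pow, h2]
      exact aux _ _ p p' hp'
    have h3 := key _ _ 1 h1 ⟨1, by simp⟩
    funext i
    have h4 : (((b i).val + p' * (a i).val : ℕ) : ZMod p) = 0 :=
      (ZMod.natCast_eq_zero_iff _ _).mpr (h3 i)
    have h5 : ((p' + 1 : ℕ) : ZMod p) = 0 := by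
      rw [← hp']; exact ZMod.natCast_self p
    push_cast at h4 h5
    rw [ZMod.natCast_zmod_val, ZMod.natCast_zmod_val] at h4
    linear_combination (-1 : ZMod p) * h4 + a i * h5
  have hbij : Function.Bijective Φ := by
    apply hΦ.bijective_of_nat_card_le
    rw [Nat.card_fun, Nat.card_zmod, Nat.card_fin]
    exact hcard.trans (Nat.pow_le_pow_right hp.out.pos hs)
  obtain ⟨a, ha⟩ := hbij.surjective (QuotientGroup.mk u)
  obtain ⟨v, hv⟩ := QuotientGroup.eq.mp ha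
  rw [powMonoidHom_apply] at hv
  have h1 : (∏ i, w i ^ (a i).val) = u * (v⁻¹) ^ p := by
    rw [inv_pow, hv, mul_inv_rev, inv_inv, mul_inv_cancel_left]
  have h2 := key _ _ _ h1 hu
  have h3 : ∀ i, (a i).val = 0 := fun i =>
    Nat.eq_zero_of_dvd_of_lt (h2 i) (ZMod.val_lt _)
  refine ⟨v, ?_⟩
  rw [hv]
  simp [h3]


open KummerModel

/-- Version of `kummer_of_cert` with natural number data and decidable side conditions. -/
theorem kummer_of_cert' (s : ℕ) (hs : rank K + 1 ≤ s) (w : Fin s → (𝓞 K)ˣ) (k c e : Fin s → ℕ)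
    (hk : ∀ i j : Fin s, i < j → k i < k j)
    (hk1 : ∀ i, 1 ≤ k i ∧ k i + 2 ≤ p ∧ ¬ p ∣ e i)
    (hL : ∀ i, Lev hζ (k i) (w i : 𝓞 K) (c i : ℤ) (e i : ℤ))
    (u : (𝓞 K)ˣ) (hu : ∃ n : ℤ, (p : 𝓞 K) ∣ (u : 𝓞 K) - n) : ∃ v : (𝓞 K)ˣ, u = v ^ p :=
  kummer_of_cert hζ s hs w k (fun i => (c i : ℤ)) (fun i => (e i : ℤ)) (fun _ _ h => hk _ _ h)
    (fun i => (hk1 i).1) (fun i => (hk1 i).2.1)
    (fun i h => (hk1 i).2.2 (Int.natCast_dvd_natCast.mp h)) hL u hu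

omit [NumberField K] hK in
theorem Lev.of_rep {k : ℕ} {x : 𝓞 K} {f : List ℕ} (hx : Rep (λ) (k + 1) x f) {c e : ℕ}
    (hf : f = certList c k e) (hk : 1 ≤ k) : Lev hζ k x (c : ℤ) (e : ℤ) := by
  unfold Lev
  simpa using hx.dvd_of_certList hf hk

/-- `ζ` as a unit. -/
noncomputable def zetaU : (𝓞 K)ˣ :=
  (hζ.toInteger_isPrimitiveRoot.isUnit (NeZero.ne p)).unit

omit [NumberField K] hK in
theorem zetaU_val : ((zetaU hζ : (𝓞 K)ˣ) : 𝓞 K) = hζ.toInteger := rfl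

open Classical in
/-- The cyclotomic unit `∑_{i < a} ζ ^ i` (for `a` prime to `p`; the unit `1` otherwise). -/
noncomputable def epsU (a : ℕ) : (𝓞 K)ˣ :=
  if h : 2 ≤ p ∧ a.Coprime p then
    (hζ.toInteger_isPrimitiveRoot.geom_sum_isUnit h.1 h.2).unit
  else 1

omit [NumberField K] hK in
theorem epsU_val {a : ℕ} (ha0 : a ≠ 0) (ha : a < p) :
    ((epsU hζ a : (𝓞 K)ˣ) : 𝓞 K) = ∑ i ∈ Finset.range a, hζ.toInteger ^ i := by
  have h : 2 ≤ p ∧ a.Coprime p :=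
    ⟨hp.out.two_le, (Nat.coprime_of_lt_prime ha0 ha hp.out).symm⟩
  rw [epsU, dif_pos h]
  rfl

/-- The unit `(∏ⱼ ε_{a+j} ^ es[j]) * ζ ^ M`. -/
noncomputable def certU (M : ℕ) : ℕ → List ℕ → (𝓞 K)ˣ
  | _, [] => zetaU hζ ^ M
  | a, e :: es => epsU hζ a ^ e * certU M (a + 1) es

omit [NumberField K] hK in
theorem rep_certU {m : ℕ} (hm : m + 1 ≤ p) (M : ℕ) : ∀ (a : ℕ) (es : List ℕ), a ≠ 0 →
    a + es.length ≤ p →
    Rep (λ) m ((certU hζ M a es : (𝓞 K)ˣ) : 𝓞 K) (certL p m M a es)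
  | _, [], _, _ => by
      rw [certU, certL, Units.val_pow_eq_pow_val, zetaU_val]
      exact Rep.pow (lam_pow_dvd_p hζ hm) (Rep.of_eq (by simp)) M
  | a, e :: es, ha0, ha => by
      rw [certU, certL, Units.val_mul, Units.val_pow_eq_pow_val]
      rw [List.length_cons] at ha
      refine Rep.mul (lam_pow_dvd_p hζ hm) (Rep.pow (lam_pow_dvd_p hζ hm) (Rep.of_eq ?_) e)
        (rep_certU hm M (a + 1) es (by omega) (by omega))
      rw [epsU_val hζ ha0 (by omega), ev_geomL]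

omit [NumberField K] hK in
/-- The certificate: if the model computation gives `[c, 0, …, 0, e]`, the unit has level `k`. -/
theorem lev_certU {k : ℕ} (hk : 1 ≤ k) (hkp : k + 2 ≤ p) (M : ℕ) (es : List ℕ)
    (hes : 2 + es.length ≤ p) {c e : ℕ} (h : certL p (k + 1) M 2 es = certList c k e) :
    Lev hζ k ((certU hζ M 2 es : (𝓞 K)ˣ) : 𝓞 K) (c : ℤ) (e : ℤ) :=
  Lev.of_rep hζ (rep_certU hζ (by omega) M 2 es (by norm_num) hes) h hk

omit [NumberField K] hK in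
theorem lev_zetaU : Lev hζ 1 ((zetaU hζ : (𝓞 K)ˣ) : 𝓞 K) ((1 : ℕ) : ℤ) ((1 : ℕ) : ℤ) := by
  unfold Lev
  rw [zetaU_val]
  have : hζ.toInteger - ((((1 : ℕ) : ℤ) : 𝓞 K) + (((1 : ℕ) : ℤ) : 𝓞 K) * (λ) ^ 1) = 0 := by
    push_cast; ring
  rw [this]
  exact dvd_zero _

variable (p K) in
theorem rank_add_one (hp3 : 3 ≤ p) : rank K + 1 = (p - 1) / 2 := by
  have h1 : rank K = Fintype.card (InfinitePlace K) - 1 := rfl
  rw [h1, InfinitePlace.card_eq_nrRealPlaces_add_nrComplexPlaces,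
    nrRealPlaces_eq_zero (n := p) K (by omega), zero_add,
    nrComplexPlaces_eq_totient_div_two (n := p), Nat.totient_prime hp.out]
  omega

end Fermat.Agent.KummerLib.KummerUnits
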