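import Mathlib
import Fermat.Agent.KummerLib.KummerUnits
import Fermat.Agent.KummerLib.Defs

/-!
# Kummer's lemma for `p = 11`

Every unit of `ℤ[ζ₁₁]` congruent to a rational integer modulo `11` is an `11`-th power.
-/

namespace Fermat.Agent.KummerLib.KummerUnits11

open NumberField Fermat.Agent.KummerLib.KummerUnits Fermat.Agent.KummerLib.KummerModel

theorem kummer_eleven (K : Type*) [Field K] [NumberField K]
    [IsCyclotomicExtension {11} ℚ K] (u : (𝓞 K)ˣ)
    (hu : ∃ n : ℤ, ((11 : ℕ) : 𝓞 K) ∣ (u : 𝓞 K) - n) : ∃ v : (𝓞 K)ˣ, u = v ^ 11 := by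
  have : Fact (Nat.Prime 11) := ⟨by norm_num⟩
  have hζ := IsCyclotomicExtension.zeta_spec 11 ℚ K
  refine kummer_of_cert' hζ 5 (by rw [rank_add_one 11 K (by norm_num)])
    ![zetaU hζ, certU hζ 9 2 [0, 0, 0, 1], certU hζ 4 2 [1, 1, 0, 0], certU hζ 5 2 [1, 0, 1, 2],
      certU hζ 7 2 [2, 10, 8, 7]]
    ![1, 2, 4, 6, 8] ![1, 5, 6, 2, 9] ![1, 5, 10, 10, 5] (by decide) (by decide) ?_ u hu
  intro i
  fin_cases i
  · exact lev_zetaU hζ
  · exact lev_certU hζ (by norm_num) (by norm_num) 9 [0, 0, 0, 1] (by norm_num) (by decide +kernel)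
  · exact lev_certU hζ (by norm_num) (by norm_num) 4 [1, 1, 0, 0] (by norm_num) (by decide +kernel)
  · exact lev_certU hζ (by norm_num) (by norm_num) 5 [1, 0, 1, 2] (by norm_num) (by decide +kernel)
  · exact lev_certU hζ (by norm_num) (by norm_num) 7 [2, 10, 8, 7] (by norm_num) (by decide +kernel)

/-- Kummer's lemma for `p = 11`, in the form of the shared interface `KummerLemma`. -/
theorem kummerLemma_eleven (K : Type) [Field K] [NumberField K]
    [IsCyclotomicExtension {11} ℚ K] : KummerLemma 11 K :=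
  fun u hu => kummer_eleven K u hu

end Fermat.Agent.KummerLib.KummerUnits11
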