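import Mathlib
import Fermat.Agent.KummerLib.KummerUnits
import Fermat.Agent.KummerLib.Defs

/-!
# Kummer's lemma for `p = 13`

Every unit of `ℤ[ζ_13]` congruent to a rational integer modulo `13` is a `13`-th power.
-/

namespace Fermat.Agent.KummerLib.KummerUnits13

open NumberField Fermat.Agent.KummerLib.KummerUnits Fermat.Agent.KummerLib.KummerModel

theorem kummer_thirteen (K : Type*) [Field K] [NumberField K]
    [IsCyclotomicExtension {13} ℚ K] (u : (𝓞 K)ˣ)
    (hu : ∃ n : ℤ, ((13 : ℕ) : 𝓞 K) ∣ (u : 𝓞 K) - n) : ∃ v : (𝓞 K)ˣ, u = v ^ 13 := by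
  have : Fact (Nat.Prime 13) := ⟨by norm_num⟩
  have hζ := IsCyclotomicExtension.zeta_spec 13 ℚ K
  refine kummer_of_cert' hζ 6 (by rw [rank_add_one 13 K (by norm_num)])
    ![zetaU hζ, certU hζ 4 2 [0, 0, 0, 0, 1], certU hζ 3 2 [0, 0, 1, 1, 0], certU hζ 8 2 [0, 0, 1, 3, 12], certU hζ 7 2 [1, 11, 11, 0, 12], certU hζ 2 2 [3, 10, 12, 9, 1]]
    ![1, 2, 4, 6, 8, 10] ![1, 6, 7, 6, 11, 5] ![1, 12, 5, 11, 8, 10] (by decide) (by decide) ?_ u hu
  intro i
  fin_cases i
  · exact lev_zetaU hζ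
  · exact lev_certU hζ (by norm_num) (by norm_num) 4 [0, 0, 0, 0, 1] (by norm_num) (by decide +kernel)
  · exact lev_certU hζ (by norm_num) (by norm_num) 3 [0, 0, 1, 1, 0] (by norm_num) (by decide +kernel)
  · exact lev_certU hζ (by norm_num) (by norm_num) 8 [0, 0, 1, 3, 12] (by norm_num) (by decide +kernel)
  · exact lev_certU hζ (by norm_num) (by norm_num) 7 [1, 11, 11, 0, 12] (by norm_num) (by decide +kernel)
  · exact lev_certU hζ (by norm_num) (by norm_num) 2 [3, 10, 12, 9, 1] (by norm_num) (by decide +kernel)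

/-- Kummer's lemma for `p = 13`, in the form of the shared interface `KummerLemma`. -/
theorem kummerLemma_thirteen (K : Type) [Field K] [NumberField K]
    [IsCyclotomicExtension {13} ℚ K] : KummerLemma 13 K :=
  fun u hu => kummer_thirteen K u hu

end Fermat.Agent.KummerLib.KummerUnits13
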