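import Mathlib
import Fermat.Agent.KummerLib.KummerUnits
import Fermat.Agent.KummerLib.Defs

/-!
# Kummer's lemma for `p = 5`

Every unit of `ℤ[ζ_5]` congruent to a rational integer modulo `5` is a `5`-th power.
-/

namespace Fermat.Agent.KummerLib.KummerUnits5

open NumberField Fermat.Agent.KummerLib.KummerUnits Fermat.Agent.KummerLib.KummerModel

theorem kummer_five (K : Type*) [Field K] [NumberField K]
    [IsCyclotomicExtension {5} ℚ K] (u : (𝓞 K)ˣ)
    (hu : ∃ n : ℤ, ((5 : ℕ) : 𝓞 K) ∣ (u : 𝓞 K) - n) : ∃ v : (𝓞 K)ˣ, u = v ^ 5 := by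
  have : Fact (Nat.Prime 5) := ⟨by norm_num⟩
  have hζ := IsCyclotomicExtension.zeta_spec 5 ℚ K
  refine kummer_of_cert' hζ 2 (by rw [rank_add_one 5 K (by norm_num)])
    ![zetaU hζ, certU hζ 2 2 [1]]
    ![1, 2] ![1, 2] ![1, 4] (by decide) (by decide) ?_ u hu
  intro i
  fin_cases i
  · exact lev_zetaU hζ
  · exact lev_certU hζ (by norm_num) (by norm_num) 2 [1] (by norm_num) (by decide +kernel)

/-- Kummer's lemma for `p = 5`, in the form of the shared interface `KummerLemma`. -/
theorem kummerLemma_five (K : Type) [Field K] [NumberField K]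
    [IsCyclotomicExtension {5} ℚ K] : KummerLemma 5 K :=
  fun u hu => kummer_five K u hu

end Fermat.Agent.KummerLib.KummerUnits5
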