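import Fermat.Agent.KummerLib.PIDLib

/-!
# Kummer project: `ℤ[ζ₁₁]` is a PID

Minkowski bound `< 60`; the only primes `q ≤ 59` needing attention are `q = 11` (ramified,
`(ζ - 1)`) and `q = 23` (splits completely; `1 + ζ + ζ ^ 3` has norm `23`).
-/

set_option autoImplicit false

namespace Fermat.Agent.KummerLib.PID11

open NumberField Polynomial Ideal Module InfinitePlace

open scoped Real

theorem exists_isPrincipal_twentyThree (K : Type*) [Field K] [NumberField K] [IsCyclotomicExtension {11} ℚ K] :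
    ∃ P ∈ primesOver (span {((23 : ℕ) : ℤ)}) (𝓞 K), Submodule.IsPrincipal P := by
  have hp : Fact (Nat.Prime 11) := ⟨by norm_num⟩
  have hζ := IsCyclotomicExtension.zeta_spec 11 ℚ K
  have hq : Fact (Nat.Prime 23) := ⟨by norm_num⟩
  have hΦ := PIDLib.geom_sum_toInteger K hζ
  simp only [Finset.sum_range_succ, Finset.sum_range_zero, zero_add, pow_zero, pow_one] at hΦ
  have key : ∀ ζ : 𝓞 K, 1 + ζ + ζ ^ 2 + ζ ^ 3 + ζ ^ 4 + ζ ^ 5 + ζ ^ 6 + ζ ^ 7 + ζ ^ 8 + ζ ^ 9 + ζ ^ 10 = 0 →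
      (1 + ζ + ζ ^ 3) *
        (-2 - 14 * ζ - 17 * ζ ^ 2 - 12 * ζ ^ 3 - 5 * ζ ^ 4 - 9 * ζ ^ 5 - 10 * ζ ^ 6 - 16 * ζ ^ 7 - 6 * ζ ^ 8 - 15 * ζ ^ 9) = (23 : 𝓞 K) ∧
      (1 + ζ + ζ ^ 3) *
        (1 + 3 * ζ + 3 * ζ ^ 2 + 2 * ζ ^ 3 + ζ ^ 4 + 2 * ζ ^ 5 + 2 * ζ ^ 6 + 3 * ζ ^ 7 + ζ ^ 8 + 3 * ζ ^ 9) = ζ - 4 := by
    intro ζ hΦ
    constructor
    · linear_combination (-25 + 9 * ζ - 15 * ζ ^ 2) * hΦ
    · linear_combination (5 - 2 * ζ + 3 * ζ ^ 2) * hΦ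
  obtain ⟨h1, h2⟩ := key _ hΦ
  refine PIDLib.exists_isPrincipal_of_root hζ 23 4 (by decide) _ _ _
    (h1.trans (by norm_cast)) (h2.trans (by norm_cast)) ?_
  clear hq
  intro ψ hψ
  simp only [map_add, map_one, map_pow, hψ]
  decide

set_option maxRecDepth 100000 in
theorem forall_prime_le (q : ℕ) (hq : q ∈ Finset.Icc 1 59) (hqp : q.Prime) : q = 11 ∨ q = 23 ∨
    ∀ f ∈ Finset.Ioo 0 6, q ^ f % 11 = 1 → 59 < q ^ f := by
  revert q
  decide

/-- The ring of integers of the `11`-th cyclotomic field is a principal ideal domain. -/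
theorem pid_eleven (K : Type*) [Field K] [NumberField K] [IsCyclotomicExtension {11} ℚ K] :
    IsPrincipalIdealRing (𝓞 K) := by
  have hp : Fact (Nat.Prime 11) := ⟨by norm_num⟩
  have : IsGalois ℚ K := IsCyclotomicExtension.isGalois {11} ℚ K
  apply PIDLib.isPrincipalIdealRing_of_bound K 59
  · rw [IsCyclotomicExtension.Rat.discr_prime 11 K, IsCyclotomicExtension.finrank (n := 11) K
      (cyclotomic.irreducible_rat (by simp)),
      IsCyclotomicExtension.Rat.nrComplexPlaces_eq_totient_div_two 11,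
      Nat.totient_prime hp.out]
    have hpi : (3.14 : ℝ) < π := Real.pi_gt_d2
    have h1 : (4 / π) ^ 5 < (4 / 3.14 : ℝ) ^ 5 := by gcongr
    have h2 : √((11 : ℝ) ^ 9) < 48560 := by
      rw [Real.sqrt_lt' (by norm_num)]; norm_num
    have h3 : |(((-1) ^ ((11 - 1) / 2) * (11 : ℕ) ^ (11 - 2) : ℤ) : ℝ)| = (11 : ℝ) ^ 9 := by
      norm_num
    rw [h3]
    have h4 : ((11 - 1) / 2 : ℕ) = 5 := by norm_num
    rw [h4]
    calc (4 / π) ^ 5 * (((11 - 1 : ℕ).factorial : ℝ) / ((11 - 1 : ℕ) : ℝ) ^ (11 - 1) * √((11 : ℝ) ^ 9))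
        ≤ (4 / 3.14 : ℝ) ^ 5 * (((11 - 1 : ℕ).factorial : ℝ) / ((11 - 1 : ℕ) : ℝ) ^ (11 - 1) * 48560) := by
          gcongr
      _ < ((59 : ℕ) : ℝ) + 1 := by
          norm_num [Nat.factorial]
  · intro q hq hqp
    by_cases h11 : q = 11
    · subst h11
      obtain ⟨P, hP, hP'⟩ := PIDLib.exists_isPrincipal_over_self (p := 11) K
      exact ⟨P, hP, Or.inr hP'⟩
    by_cases h23 : q = 23
    · subst h23
      obtain ⟨P, hP, hP'⟩ := exists_isPrincipal_twentyThree K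
      exact ⟨P, hP, Or.inr hP'⟩
    have hq' : Fact q.Prime := ⟨hqp⟩
    obtain ⟨P, hP, hP'⟩ := PIDLib.exists_lt_pow_inertiaDeg' K q h11 59 6 (by norm_num)
      (((forall_prime_le q hq hqp).resolve_left h11).resolve_left h23)
    exact ⟨P, hP, Or.inl hP'⟩

end Fermat.Agent.KummerLib.PID11
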