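import Fermat.Agent.KummerLib.PIDLib

/-!
# Kummer project: `ℤ[ζ₁₃]` is a PID

Minkowski bound `< 307`. The primes `q ≤ 306` needing attention are `q = 13` (ramified, `(ζ - 1)`),
`q = 3` (residue degree `3`; `ζ ^ 3 - ζ - 1` has norm `27`) and the totally split primes
`q = 53, 79, 131, 157`, for which we exhibit generators of a prime of degree one.
-/

set_option autoImplicit false
set_option linter.unusedSimpArgs false
set_option linter.style.longLine false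

namespace Fermat.Agent.KummerLib.PID13

open NumberField Polynomial Ideal Module InfinitePlace

open scoped Real

set_option maxRecDepth 100000 in
theorem exists_isPrincipal_three (K : Type*) [Field K] [NumberField K] [IsCyclotomicExtension {13} ℚ K] :
    ∃ P ∈ primesOver (span {((3 : ℕ) : ℤ)}) (𝓞 K), Submodule.IsPrincipal P := by
  have hp : Fact (Nat.Prime 13) := ⟨by norm_num⟩
  have hζ := IsCyclotomicExtension.zeta_spec 13 ℚ K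
  have hΦ := PIDLib.geom_sum_toInteger K hζ
  simp only [Finset.sum_range_succ, Finset.sum_range_zero, zero_add, pow_zero, pow_one] at hΦ
  have key : ∀ ζ : 𝓞 K, 1 + ζ + ζ ^ 2 + ζ ^ 3 + ζ ^ 4 + ζ ^ 5 + ζ ^ 6 + ζ ^ 7 + ζ ^ 8 + ζ ^ 9 + ζ ^ 10 + ζ ^ 11 + ζ ^ 12 = 0 →
      ∃ β : 𝓞 K, (ζ ^ 3 - ζ - 1) * β = (3 : 𝓞 K) := by
    intro ζ hΦ
    refine ⟨1 + ζ ^ 2 + ζ ^ 3 + 2 * ζ ^ 5 + ζ ^ 7 + 2 * ζ ^ 8 - ζ ^ 9 + 3 * ζ ^ 10, ?_⟩
    linear_combination (-4 + 3 * ζ) * hΦ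
  obtain ⟨β, h1⟩ := key _ hΦ
  refine PIDLib.exists_isPrincipal_of_factor K hζ 3 (X ^ 3 - X - 1)
    (-1 - X ^ 2 - X ^ 3 + X ^ 5 - X ^ 7 + X ^ 8 + X ^ 9)
    (-X ^ 5 - X ^ 6 - X ^ 9 - X ^ 10) ?_ ?_ ?_ β ?_
  · monicity!
  · have hmap : (X ^ 3 - X - 1 : ℤ[X]).map (Int.castRingHom (ZMod 3)) = X ^ 3 - X - 1 := by
      simp
    rw [hmap]
    apply Polynomial.irreducible_of_degree_le_three_of_not_isRoot
    · have hdeg : (X ^ 3 - X - 1 : (ZMod 3)[X]).natDegree = 3 := by compute_degree!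
      rw [hdeg]
      decide
    · intro x
      simp only [IsRoot, eval_sub, eval_pow, eval_X, eval_one]
      revert x
      decide
  · rw [cyclotomic_prime ℤ 13]
    simp only [Finset.sum_range_succ, Finset.sum_range_zero, zero_add, pow_zero, pow_one]
    have h3 : (C ((3 : ℕ) : ℤ) : ℤ[X]) = 3 := by simp
    rw [h3]
    ring
  · simp only [map_sub, map_pow, aeval_X, map_one]
    rw [h1]
    norm_cast

set_option maxRecDepth 100000 in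
theorem exists_isPrincipal_fiftyThree (K : Type*) [Field K] [NumberField K] [IsCyclotomicExtension {13} ℚ K] :
    ∃ P ∈ primesOver (span {((53 : ℕ) : ℤ)}) (𝓞 K), Submodule.IsPrincipal P := by
  have hp : Fact (Nat.Prime 13) := ⟨by norm_num⟩
  have hζ := IsCyclotomicExtension.zeta_spec 13 ℚ K
  have hq : Fact (Nat.Prime 53) := ⟨by norm_num⟩
  have hΦ := PIDLib.geom_sum_toInteger K hζ
  simp only [Finset.sum_range_succ, Finset.sum_range_zero, zero_add, pow_zero, pow_one] at hΦ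
  have key : ∀ ζ : 𝓞 K, 1 + ζ + ζ ^ 2 + ζ ^ 3 + ζ ^ 4 + ζ ^ 5 + ζ ^ 6 + ζ ^ 7 + ζ ^ 8 + ζ ^ 9 + ζ ^ 10 + ζ ^ 11 + ζ ^ 12 = 0 →
      (1 + ζ + ζ ^ 3) *
        (1 - 24 * ζ - 35 * ζ ^ 2 - 25 * ζ ^ 3 - 10 * ζ ^ 4 - 14 * ζ ^ 5 - 20 * ζ ^ 6 - 29 * ζ ^ 7 - 16 * ζ ^ 8 - 23 * ζ ^ 9 - 7 * ζ ^ 10 - 36 * ζ ^ 11) = (53 : 𝓞 K) ∧
      (1 + ζ + ζ ^ 3) *
        (1 - 7 * ζ - 11 * ζ ^ 2 - 8 * ζ ^ 3 - 3 * ζ ^ 4 - 4 * ζ ^ 5 - 6 * ζ ^ 6 - 9 * ζ ^ 7 - 5 * ζ ^ 8 - 7 * ζ ^ 9 - 2 * ζ ^ 10 - 11 * ζ ^ 11) = ζ - (-17) := by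
    intro ζ hΦ
    constructor
    · linear_combination (-52 + 29 * ζ - 36 * ζ ^ 2) * hΦ
    · linear_combination (-16 + 9 * ζ - 11 * ζ ^ 2) * hΦ
  obtain ⟨h1, h2⟩ := key _ hΦ
  refine PIDLib.exists_isPrincipal_of_root hζ 53 (-17) (by decide) _ _ _
    (h1.trans (by norm_cast)) (h2.trans (by norm_cast)) ?_
  clear hq
  intro ψ hψ
  simp only [map_add, map_sub, map_neg, map_one, map_pow, hψ]
  decide

set_option maxRecDepth 100000 in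
theorem exists_isPrincipal_seventyNine (K : Type*) [Field K] [NumberField K] [IsCyclotomicExtension {13} ℚ K] :
    ∃ P ∈ primesOver (span {((79 : ℕ) : ℤ)}) (𝓞 K), Submodule.IsPrincipal P := by
  have hp : Fact (Nat.Prime 13) := ⟨by norm_num⟩
  have hζ := IsCyclotomicExtension.zeta_spec 13 ℚ K
  have hq : Fact (Nat.Prime 79) := ⟨by norm_num⟩
  have hΦ := PIDLib.geom_sum_toInteger K hζ
  simp only [Finset.sum_range_succ, Finset.sum_range_zero, zero_add, pow_zero, pow_one] at hΦ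
  have key : ∀ ζ : 𝓞 K, 1 + ζ + ζ ^ 2 + ζ ^ 3 + ζ ^ 4 + ζ ^ 5 + ζ ^ 6 + ζ ^ 7 + ζ ^ 8 + ζ ^ 9 + ζ ^ 10 + ζ ^ 11 + ζ ^ 12 = 0 →
      (1 + ζ - ζ ^ 4) *
        (24 - 25 * ζ - 27 * ζ ^ 2 + 10 * ζ ^ 3 - 3 * ζ ^ 4 - 39 * ζ ^ 5 - 5 * ζ ^ 6 - 2 * ζ ^ 7 - 18 * ζ ^ 8 - 38 * ζ ^ 9 + 16 * ζ ^ 10 - 35 * ζ ^ 11) = (79 : 𝓞 K) ∧
      (1 + ζ - ζ ^ 4) *
        (5 - 4 * ζ - 5 * ζ ^ 2 + 2 * ζ ^ 3 - 7 * ζ ^ 5 - ζ ^ 6 - 3 * ζ ^ 8 - 7 * ζ ^ 9 + 3 * ζ ^ 10 - 6 * ζ ^ 11) = ζ - (-15) := by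
    intro ζ hΦ
    constructor
    · linear_combination (-55 + 54 * ζ - 51 * ζ ^ 2 + 35 * ζ ^ 3) * hΦ
    · linear_combination (-10 + 10 * ζ - 9 * ζ ^ 2 + 6 * ζ ^ 3) * hΦ
  obtain ⟨h1, h2⟩ := key _ hΦ
  refine PIDLib.exists_isPrincipal_of_root hζ 79 (-15) (by decide) _ _ _
    (h1.trans (by norm_cast)) (h2.trans (by norm_cast)) ?_
  clear hq
  intro ψ hψ
  simp only [map_add, map_sub, map_neg, map_one, map_pow, hψ]
  decide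

set_option maxRecDepth 100000 in
theorem exists_isPrincipal_oneHundredThirtyOne (K : Type*) [Field K] [NumberField K] [IsCyclotomicExtension {13} ℚ K] :
    ∃ P ∈ primesOver (span {((131 : ℕ) : ℤ)}) (𝓞 K), Submodule.IsPrincipal P := by
  have hp : Fact (Nat.Prime 13) := ⟨by norm_num⟩
  have hζ := IsCyclotomicExtension.zeta_spec 13 ℚ K
  have hq : Fact (Nat.Prime 131) := ⟨by norm_num⟩
  have hΦ := PIDLib.geom_sum_toInteger K hζ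
  simp only [Finset.sum_range_succ, Finset.sum_range_zero, zero_add, pow_zero, pow_one] at hΦ
  have key : ∀ ζ : 𝓞 K, 1 + ζ + ζ ^ 2 + ζ ^ 3 + ζ ^ 4 + ζ ^ 5 + ζ ^ 6 + ζ ^ 7 + ζ ^ 8 + ζ ^ 9 + ζ ^ 10 + ζ ^ 11 + ζ ^ 12 = 0 →
      (1 + ζ - ζ ^ 6) *
        (41 - 37 * ζ - 26 * ζ ^ 2 + ζ ^ 3 - 28 * ζ ^ 4 + 8 * ζ ^ 5 + 13 * ζ ^ 6 - 70 * ζ ^ 7 + 24 * ζ ^ 8 - 43 * ζ ^ 9 - 5 * ζ ^ 10 - 7 * ζ ^ 11) = (131 : 𝓞 K) ∧
      (1 + ζ - ζ ^ 6) *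
        (6 - 5 * ζ - 4 * ζ ^ 2 - 4 * ζ ^ 4 + ζ ^ 5 + 2 * ζ ^ 6 - 10 * ζ ^ 7 + 3 * ζ ^ 8 - 6 * ζ ^ 9 - ζ ^ 10 - ζ ^ 11) = ζ - (-19) := by
    intro ζ hΦ
    constructor
    · linear_combination (-90 + 94 * ζ - 67 * ζ ^ 2 + 38 * ζ ^ 3 - 2 * ζ ^ 4 + 7 * ζ ^ 5) * hΦ
    · linear_combination (-13 + 13 * ζ - 9 * ζ ^ 2 + 5 * ζ ^ 3 + ζ ^ 5) * hΦ
  obtain ⟨h1, h2⟩ := key _ hΦ
  refine PIDLib.exists_isPrincipal_of_root hζ 131 (-19) (by decide) _ _ _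
    (h1.trans (by norm_cast)) (h2.trans (by norm_cast)) ?_
  clear hq
  intro ψ hψ
  simp only [map_add, map_sub, map_neg, map_one, map_pow, hψ]
  decide

set_option maxRecDepth 100000 in
theorem exists_isPrincipal_oneHundredFiftySeven (K : Type*) [Field K] [NumberField K] [IsCyclotomicExtension {13} ℚ K] :
    ∃ P ∈ primesOver (span {((157 : ℕ) : ℤ)}) (𝓞 K), Submodule.IsPrincipal P := by
  have hp : Fact (Nat.Prime 13) := ⟨by norm_num⟩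
  have hζ := IsCyclotomicExtension.zeta_spec 13 ℚ K
  have hq : Fact (Nat.Prime 157) := ⟨by norm_num⟩
  have hΦ := PIDLib.geom_sum_toInteger K hζ
  simp only [Finset.sum_range_succ, Finset.sum_range_zero, zero_add, pow_zero, pow_one] at hΦ
  have key : ∀ ζ : 𝓞 K, 1 + ζ + ζ ^ 2 + ζ ^ 3 + ζ ^ 4 + ζ ^ 5 + ζ ^ 6 + ζ ^ 7 + ζ ^ 8 + ζ ^ 9 + ζ ^ 10 + ζ ^ 11 + ζ ^ 12 = 0 →
      (1 + ζ + ζ ^ 2 + ζ ^ 5) *
        (16 - 40 * ζ - ζ ^ 2 - 59 * ζ ^ 3 - 13 * ζ ^ 4 - 17 * ζ ^ 5 - 3 * ζ ^ 6 - 52 * ζ ^ 7 + 41 * ζ ^ 8 - 49 * ζ ^ 9 - 48 * ζ ^ 10 + 27 * ζ ^ 11) = (157 : 𝓞 K) ∧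
      (1 + ζ + ζ ^ 2 + ζ ^ 5) *
        (-7 + 17 * ζ + 25 * ζ ^ 3 + 5 * ζ ^ 4 + 7 * ζ ^ 5 + ζ ^ 6 + 22 * ζ ^ 7 - 18 * ζ ^ 8 + 21 * ζ ^ 9 + 20 * ζ ^ 10 - 12 * ζ ^ 11) = ζ - 67 := by
    intro ζ hΦ
    constructor
    · linear_combination (-141 + 117 * ζ - ζ ^ 2 - 75 * ζ ^ 3 + 27 * ζ ^ 4) * hΦ
    · linear_combination (60 - 51 * ζ + ζ ^ 2 + 32 * ζ ^ 3 - 12 * ζ ^ 4) * hΦ
  obtain ⟨h1, h2⟩ := key _ hΦ
  refine PIDLib.exists_isPrincipal_of_root hζ 157 67 (by decide) _ _ _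
    (h1.trans (by norm_cast)) (h2.trans (by norm_cast)) ?_
  clear hq
  intro ψ hψ
  simp only [map_add, map_sub, map_neg, map_one, map_pow, hψ]
  decide

set_option maxRecDepth 100000 in
theorem forall_prime_le (q : ℕ) (hq : q ∈ Finset.Icc 1 306) (hqp : q.Prime) :
    q = 13 ∨ q = 3 ∨ q = 53 ∨ q = 79 ∨ q = 131 ∨ q = 157 ∨
    ∀ f ∈ Finset.Ioo 0 9, q ^ f % 13 = 1 → 306 < q ^ f := by
  revert q
  decide

/-- The ring of integers of the `13`-th cyclotomic field is a principal ideal domain. -/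
theorem pid_thirteen (K : Type*) [Field K] [NumberField K] [IsCyclotomicExtension {13} ℚ K] :
    IsPrincipalIdealRing (𝓞 K) := by
  have hp : Fact (Nat.Prime 13) := ⟨by norm_num⟩
  have : IsGalois ℚ K := IsCyclotomicExtension.isGalois {13} ℚ K
  apply PIDLib.isPrincipalIdealRing_of_bound K 306
  · rw [IsCyclotomicExtension.Rat.discr_prime 13 K, IsCyclotomicExtension.finrank (n := 13) K
      (cyclotomic.irreducible_rat (by simp)),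
      IsCyclotomicExtension.Rat.nrComplexPlaces_eq_totient_div_two 13,
      Nat.totient_prime hp.out]
    have hpi : (3.1415 : ℝ) < π := Real.pi_gt_d4
    have h2 : √((13 : ℝ) ^ 11) < 1338716 := by
      rw [Real.sqrt_lt' (by norm_num)]; norm_num
    have h3 : |(((-1) ^ ((13 - 1) / 2) * (13 : ℕ) ^ (13 - 2) : ℤ) : ℝ)| = (13 : ℝ) ^ 11 := by
      norm_num
    rw [h3]
    have h4 : ((13 - 1) / 2 : ℕ) = 6 := by norm_num
    rw [h4]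
    calc (4 / π) ^ 6 * (((13 - 1 : ℕ).factorial : ℝ) / ((13 - 1 : ℕ) : ℝ) ^ (13 - 1) * √((13 : ℝ) ^ 11))
        ≤ (4 / 3.1415 : ℝ) ^ 6 * (((13 - 1 : ℕ).factorial : ℝ) / ((13 - 1 : ℕ) : ℝ) ^ (13 - 1) * 1338716) := by
          gcongr
      _ < ((306 : ℕ) : ℝ) + 1 := by
          norm_num [Nat.factorial]
  · intro q hq hqp
    by_cases h13 : q = 13
    · subst h13
      obtain ⟨P, hP, hP'⟩ := PIDLib.exists_isPrincipal_over_self (p := 13) K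
      exact ⟨P, hP, Or.inr hP'⟩
    by_cases h3 : q = 3
    · subst h3
      obtain ⟨P, hP, hP'⟩ := exists_isPrincipal_three K
      exact ⟨P, hP, Or.inr hP'⟩
    by_cases h53 : q = 53
    · subst h53
      obtain ⟨P, hP, hP'⟩ := exists_isPrincipal_fiftyThree K
      exact ⟨P, hP, Or.inr hP'⟩
    by_cases h79 : q = 79
    · subst h79
      obtain ⟨P, hP, hP'⟩ := exists_isPrincipal_seventyNine K
      exact ⟨P, hP, Or.inr hP'⟩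
    by_cases h131 : q = 131
    · subst h131
      obtain ⟨P, hP, hP'⟩ := exists_isPrincipal_oneHundredThirtyOne K
      exact ⟨P, hP, Or.inr hP'⟩
    by_cases h157 : q = 157
    · subst h157
      obtain ⟨P, hP, hP'⟩ := exists_isPrincipal_oneHundredFiftySeven K
      exact ⟨P, hP, Or.inr hP'⟩
    have hq' : Fact q.Prime := ⟨hqp⟩
    obtain ⟨P, hP, hP'⟩ := PIDLib.exists_lt_pow_inertiaDeg' K q h13 306 9 (by norm_num)
      (((((((forall_prime_le q hq hqp).resolve_left h13).resolve_left h3).resolve_left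
        h53).resolve_left h79).resolve_left h131).resolve_left h157)
    exact ⟨P, hP, Or.inl hP'⟩

end Fermat.Agent.KummerLib.PID13
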