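import Fermat.Agent.KummerLib.PIDLib

/-!
# Kummer project: `ℤ[ζ₇]` is a PID

Minkowski bound `< 5`; the primes `2` and `3` are inert enough (`f = 3` and `f = 6`).
-/

set_option autoImplicit false

namespace Fermat.Agent.KummerLib.PID7

open NumberField Polynomial Ideal Module InfinitePlace

open scoped Real

theorem forall_prime_le (q : ℕ) (hq : q ∈ Finset.Icc 1 4) (hqp : q.Prime) :
    ∀ f ∈ Finset.Ioo 0 3, q ^ f % 7 = 1 → 4 < q ^ f := by
  revert q
  decide

/-- The ring of integers of the `7`-th cyclotomic field is a principal ideal domain. -/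
theorem pid_seven (K : Type*) [Field K] [NumberField K] [IsCyclotomicExtension {7} ℚ K] :
    IsPrincipalIdealRing (𝓞 K) := by
  have hp : Fact (Nat.Prime 7) := ⟨by norm_num⟩
  have : IsGalois ℚ K := IsCyclotomicExtension.isGalois {7} ℚ K
  apply PIDLib.isPrincipalIdealRing_of_bound K 4
  · rw [IsCyclotomicExtension.Rat.discr_prime 7 K, IsCyclotomicExtension.finrank (n := 7) K
      (cyclotomic.irreducible_rat (by simp)),
      IsCyclotomicExtension.Rat.nrComplexPlaces_eq_totient_div_two 7,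
      Nat.totient_prime hp.out]
    have hpi : (3.14 : ℝ) < π := Real.pi_gt_d2
    have h2 : √((7 : ℝ) ^ 5) < 130 := by
      rw [Real.sqrt_lt' (by norm_num)]; norm_num
    have h3 : |(((-1) ^ ((7 - 1) / 2) * (7 : ℕ) ^ (7 - 2) : ℤ) : ℝ)| = (7 : ℝ) ^ 5 := by
      norm_num
    rw [h3]
    have h4 : ((7 - 1) / 2 : ℕ) = 3 := by norm_num
    rw [h4]
    calc (4 / π) ^ 3 * (((7 - 1 : ℕ).factorial : ℝ) / ((7 - 1 : ℕ) : ℝ) ^ (7 - 1) * √((7 : ℝ) ^ 5))
        ≤ (4 / 3.14 : ℝ) ^ 3 * (((7 - 1 : ℕ).factorial : ℝ) / ((7 - 1 : ℕ) : ℝ) ^ (7 - 1) * 130) := by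
          gcongr
      _ < ((4 : ℕ) : ℝ) + 1 := by
          norm_num [Nat.factorial]
  · intro q hq hqp
    have h7 : q ≠ 7 := by
      rintro rfl
      simp at hq
    have hq' : Fact q.Prime := ⟨hqp⟩
    obtain ⟨P, hP, hP'⟩ := PIDLib.exists_lt_pow_inertiaDeg' K q h7 4 3 (by norm_num)
      (forall_prime_le q hq hqp)
    exact ⟨P, hP, Or.inl hP'⟩

end Fermat.Agent.KummerLib.PID7
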