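import Mathlib

/-!
# Kummer project: tools for proving that `ℤ[ζ_p]` is a PID

Generic lemmas used by `PID7.lean`, `PID11.lean`, `PID13.lean`.
-/

set_option autoImplicit false

namespace Fermat.Agent.KummerLib.PIDLib

open NumberField Polynomial Ideal Module InfinitePlace

open scoped Real

section general

variable {p : ℕ} [hp : Fact p.Prime] {K : Type*} [Field K] [NumberField K]
  [hK : IsCyclotomicExtension {p} ℚ K]

/-- A ring hom out of `𝓞 K` sending `ζ` to a prescribed root of the cyclotomic polynomial. -/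
theorem exists_ringHom_of_root {ζ : K} (hζ : IsPrimitiveRoot ζ p) {R : Type*} [CommRing R] (y : R)
    (hy : ∑ i ∈ Finset.range p, y ^ i = 0) : ∃ ψ : 𝓞 K →+* R, ψ hζ.toInteger = y := by
  have hmin : minpoly ℤ hζ.integralPowerBasis.gen = cyclotomic p ℤ := by
    rw [hζ.integralPowerBasis_gen, cyclotomic_eq_minpoly hζ hp.out.pos,
      ← RingOfIntegers.minpoly_coe hζ.toInteger]
    rfl
  have hy' : aeval y (minpoly ℤ hζ.integralPowerBasis.gen) = 0 := by
    rw [hmin, cyclotomic_prime ℤ p]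
    simpa using hy
  refine ⟨(hζ.integralPowerBasis.lift y hy').toRingHom, ?_⟩
  have := hζ.integralPowerBasis.lift_gen y hy'
  rw [hζ.integralPowerBasis_gen] at this
  exact this

/-- Every element of `𝓞 K` is congruent to a rational integer modulo `ζ - r`. -/
theorem exists_int_sub_mem {ζ : K} (hζ : IsPrimitiveRoot ζ p) (r : ℤ) (x : 𝓞 K) :
    ∃ n : ℤ, x - (n : 𝓞 K) ∈ Ideal.span {hζ.toInteger - (r : 𝓞 K)} := by
  have hx : x ∈ Algebra.adjoin ℤ {hζ.toInteger} := by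
    rw [IsCyclotomicExtension.Rat.adjoin_singleton_eq_top hζ]; trivial
  induction hx using Algebra.adjoin_induction with
  | mem x hx =>
    rw [Set.mem_singleton_iff] at hx
    subst hx
    exact ⟨r, Ideal.subset_span rfl⟩
  | algebraMap n =>
    exact ⟨n, by simp⟩
  | add x y _ _ hx hy =>
    obtain ⟨n, hn⟩ := hx
    obtain ⟨m, hm⟩ := hy
    refine ⟨n + m, ?_⟩
    have : x + y - ((n + m : ℤ) : 𝓞 K) = (x - n) + (y - m) := by push_cast; ring
    rw [this]
    exact Ideal.add_mem _ hn hm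
  | mul x y _ _ hx hy =>
    obtain ⟨n, hn⟩ := hx
    obtain ⟨m, hm⟩ := hy
    refine ⟨n * m, ?_⟩
    have : x * y - ((n * m : ℤ) : 𝓞 K) = (x - n) * y + n * (y - m) := by push_cast; ring
    rw [this]
    exact Ideal.add_mem _ (Ideal.mul_mem_right _ _ hn) (Ideal.mul_mem_left _ _ hm)

/-- A principal prime of degree one over `q`: it is enough to give `α ∣ q`, `α ∣ ζ - r` and to
check that `α` vanishes under `ζ ↦ r` modulo `q`. -/
theorem exists_isPrincipal_of_root {ζ : K} (hζ : IsPrimitiveRoot ζ p) (q : ℕ)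
    (r : ℤ) (hr : ∑ i ∈ Finset.range p, (r : ZMod q) ^ i = 0)
    (α β γ : 𝓞 K) (h1 : α * β = (q : 𝓞 K)) (h2 : α * γ = hζ.toInteger - (r : 𝓞 K))
    (hα : ∀ ψ : 𝓞 K →+* ZMod q, ψ hζ.toInteger = (r : ZMod q) → ψ α = 0)
    [hq : Fact q.Prime] :
    ∃ P ∈ primesOver (span {(q : ℤ)}) (𝓞 K), Submodule.IsPrincipal P := by
  obtain ⟨ψ, hψ⟩ := exists_ringHom_of_root hζ (r : ZMod q) hr
  have hker : RingHom.ker ψ = Ideal.span {α} := by
    apply le_antisymm
    · intro x hx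
      rw [RingHom.mem_ker] at hx
      obtain ⟨n, hn⟩ := exists_int_sub_mem hζ r x
      rw [Ideal.mem_span_singleton] at hn
      obtain ⟨y, hy⟩ := hn
      have hn0 : (n : ZMod q) = 0 := by
        have h := congrArg ψ hy
        rw [map_sub, map_mul, map_sub, hψ, hx] at h
        simpa using h
      rw [ZMod.intCast_zmod_eq_zero_iff_dvd] at hn0
      obtain ⟨m, rfl⟩ := hn0
      rw [Ideal.mem_span_singleton]
      refine ⟨γ * y + β * m, ?_⟩
      have : x = (hζ.toInteger - (r : 𝓞 K)) * y + ((q : ℤ) * m : ℤ) := by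
        rw [← hy]; ring
      rw [this, ← h2]
      push_cast
      rw [← h1]
      ring
    · rw [Ideal.span_le, Set.singleton_subset_iff]
      exact hα ψ hψ
  refine ⟨RingHom.ker ψ, ⟨RingHom.ker_isPrime ψ, ?_⟩, ?_⟩
  · rw [liesOver_iff]
    ext n
    rw [Ideal.mem_span_singleton, under_def, Ideal.mem_comap, RingHom.mem_ker]
    simp [ZMod.intCast_zmod_eq_zero_iff_dvd]
  · rw [hker]
    exact ⟨α, rfl⟩

variable (K)

/-- For a prime `q ≠ p`, some prime of `𝓞 K` above `q` has norm `q ^ f > B`, provided every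
power `q ^ f ≡ 1 (mod p)` with `0 < f` exceeds `B`. -/
theorem exists_lt_pow_inertiaDeg (q : ℕ) [hq : Fact q.Prime] (hqp : q ≠ p) (B : ℕ)
    (hB : ∀ f, 0 < f → q ^ f % p = 1 → B < q ^ f) :
    ∃ P ∈ primesOver (span {(q : ℤ)}) (𝓞 K), B < q ^ P.inertiaDeg ℤ := by
  have : NeZero p := ⟨hp.out.ne_zero⟩
  obtain ⟨⟨P, hP1, hP2⟩⟩ := (span {(q : ℤ)}).nonempty_primesOver (S := 𝓞 K)
  refine ⟨P, ⟨hP1, hP2⟩, ?_⟩
  have hqp' : ¬ q ∣ p := fun h => hqp ((Nat.prime_dvd_prime_iff_eq hq.out hp.out).mp h)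
  have hf : P.inertiaDeg ℤ = orderOf (q : ZMod p) :=
    IsCyclotomicExtension.Rat.inertiaDeg_eq_of_not_dvd q K P hqp'
  have hq0 : (q : ZMod p) ≠ 0 := by
    rw [Ne, ZMod.natCast_eq_zero_iff]
    exact fun h => hqp ((Nat.prime_dvd_prime_iff_eq hp.out hq.out).mp h).symm
  have hpos : 0 < orderOf (q : ZMod p) := by
    rw [orderOf_pos_iff, isOfFinOrder_iff_pow_eq_one]
    exact ⟨p - 1, Nat.sub_pos_of_lt hp.out.one_lt, ZMod.pow_card_sub_one_eq_one hq0⟩
  rw [hf]
  apply hB _ hpos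
  have h1 : ((q ^ orderOf (q : ZMod p) : ℕ) : ZMod p) = ((1 : ℕ) : ZMod p) := by
    push_cast
    exact pow_orderOf_eq_one _
  rw [ZMod.natCast_eq_natCast_iff'] at h1
  rw [h1, Nat.mod_eq_of_lt hp.out.one_lt]

/-- Variant of `exists_lt_pow_inertiaDeg` with a finite (decidable) hypothesis. -/
theorem exists_lt_pow_inertiaDeg' (q : ℕ) [hq : Fact q.Prime] (hqp : q ≠ p) (B n : ℕ)
    (hn : B < 2 ^ n) (h : ∀ f ∈ Finset.Ioo 0 n, q ^ f % p = 1 → B < q ^ f) :
    ∃ P ∈ primesOver (span {(q : ℤ)}) (𝓞 K), B < q ^ P.inertiaDeg ℤ := by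
  refine exists_lt_pow_inertiaDeg K q hqp B fun f hf hf1 => ?_
  by_cases hfn : f < n
  · exact h f (Finset.mem_Ioo.mpr ⟨hf, hfn⟩) hf1
  · calc B < 2 ^ n := hn
      _ ≤ 2 ^ f := Nat.pow_le_pow_right (by norm_num) (not_lt.mp hfn)
      _ ≤ q ^ f := Nat.pow_le_pow_left hq.out.two_le f

omit [NumberField K] in
/-- The cyclotomic relation for `ζ` in `𝓞 K`. -/
theorem geom_sum_toInteger {ζ : K} (hζ : IsPrimitiveRoot ζ p) :
    ∑ i ∈ Finset.range p, hζ.toInteger ^ i = 0 :=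
  hζ.toInteger_isPrimitiveRoot.geom_sum_eq_zero hp.out.one_lt

/-- A principal prime above `q` from Kummer–Dedekind: if `Q` is a monic integer polynomial which
is irreducible modulo `q` and divides the cyclotomic polynomial modulo `q`, and `Q(ζ) ∣ q`, then
`(Q(ζ))` is a prime above `q`. -/
theorem exists_isPrincipal_of_factor {ζ : K} (hζ : IsPrimitiveRoot ζ p) (q : ℕ)
    [hq : Fact q.Prime] (Q H R : ℤ[X]) (hmonic : Q.Monic)
    (hirr : Irreducible (Q.map (Int.castRingHom (ZMod q))))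
    (hfac : Q * H = cyclotomic p ℤ + C (q : ℤ) * R)
    (β : 𝓞 K) (h1 : aeval hζ.toInteger Q * β = (q : 𝓞 K)) :
    ∃ P ∈ primesOver (span {(q : ℤ)}) (𝓞 K), Submodule.IsPrincipal P := by
  classical
  have hexp : ¬ q ∣ RingOfIntegers.exponent hζ.toInteger := by
    rw [RingOfIntegers.exponent_eq_one_iff.mpr
      (IsCyclotomicExtension.Rat.adjoin_singleton_eq_top hζ)]
    exact hq.out.not_dvd_one
  have hmin : minpoly ℤ hζ.toInteger = cyclotomic p ℤ := by
    rw [cyclotomic_eq_minpoly hζ hp.out.pos, ← RingOfIntegers.minpoly_coe hζ.toInteger]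
    rfl
  have hQ : Q.map (Int.castRingHom (ZMod q)) ∈
      RingOfIntegers.monicFactorsMod hζ.toInteger q := by
    rw [Multiset.mem_toFinset, Polynomial.mem_normalizedFactors_iff
      (map_monic_ne_zero (minpoly.monic hζ.toInteger.isIntegral))]
    refine ⟨hirr, hmonic.map _, ?_⟩
    rw [hmin]
    refine ⟨H.map (Int.castRingHom (ZMod q)), ?_⟩
    have h := congrArg (Polynomial.map (Int.castRingHom (ZMod q))) hfac
    rw [Polynomial.map_mul, Polynomial.map_add, Polynomial.map_mul, Polynomial.map_C] at h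
    rw [h]
    simp
  refine ⟨((NumberField.Ideal.primesOverSpanEquivMonicFactorsMod hexp).symm ⟨_, hQ⟩).1,
    ((NumberField.Ideal.primesOverSpanEquivMonicFactorsMod hexp).symm ⟨_, hQ⟩).2, ?_⟩
  rw [NumberField.Ideal.primesOverSpanEquivMonicFactorsMod_symm_apply_eq_span hexp hQ]
  have : span {(q : 𝓞 K), aeval hζ.toInteger Q} = span {aeval hζ.toInteger Q} := by
    rw [Ideal.span_insert, sup_eq_right, Ideal.span_singleton_le_span_singleton]
    exact ⟨β, h1.symm⟩
  rw [this]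
  exact ⟨_, rfl⟩

/-- The prime above `p` is principal. -/
theorem exists_isPrincipal_over_self :
    ∃ P ∈ primesOver (span {(p : ℤ)}) (𝓞 K), Submodule.IsPrincipal P := by
  have hζ := IsCyclotomicExtension.zeta_spec p ℚ K
  refine ⟨span {hζ.toInteger - 1}, ⟨IsCyclotomicExtension.Rat.isPrime_span_zeta_sub_one' p hζ, ?_⟩,
    ⟨_, rfl⟩⟩
  have hK' : IsCyclotomicExtension {p ^ (0 + 1)} ℚ K := by rwa [zero_add, pow_one]
  have hζ' : IsPrimitiveRoot (IsCyclotomicExtension.zeta p ℚ K) (p ^ (0 + 1)) := by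
    rwa [zero_add, pow_one]
  exact IsCyclotomicExtension.Rat.liesOver_span_zeta_sub_one p 0 hζ'

omit hp hK in
/-- PID criterion with an explicit upper bound `B` for the Minkowski bound. -/
theorem isPrincipalIdealRing_of_bound [IsGalois ℚ K] (B : ℕ)
    (hM : (4 / π) ^ nrComplexPlaces K *
      (((finrank ℚ K).factorial : ℝ) / (finrank ℚ K : ℝ) ^ (finrank ℚ K) *
        √|(discr K : ℝ)|) < B + 1)
    (h : ∀ q ∈ Finset.Icc 1 B, q.Prime → ∃ P ∈ primesOver (span {(q : ℤ)}) (𝓞 K),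
      B < q ^ P.inertiaDeg ℤ ∨ Submodule.IsPrincipal P) : IsPrincipalIdealRing (𝓞 K) := by
  have hfl : ⌊(4 / π) ^ nrComplexPlaces K *
      (((finrank ℚ K).factorial : ℝ) / (finrank ℚ K : ℝ) ^ (finrank ℚ K) *
        √|(discr K : ℝ)|)⌋₊ ≤ B := by
    rw [← Nat.lt_add_one_iff, Nat.floor_lt (by positivity)]
    exact_mod_cast hM
  apply RingOfIntegers.isPrincipalIdealRing_of_isPrincipal_of_lt_or_isPrincipal_of_mem_primesOver_of_mem_Icc
  intro q hq hqp
  rw [Finset.mem_Icc] at hq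
  obtain ⟨P, hP, hP'⟩ := h q (Finset.mem_Icc.mpr ⟨hq.1, hq.2.trans hfl⟩) hqp
  exact ⟨P, hP, hP'.imp (fun h => lt_of_le_of_lt hfl h) id⟩

end general

end Fermat.Agent.KummerLib.PIDLib
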